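import Fermat.Agent.S33.Soft.Defs

/-!
# S33 / Soft-Aug : the subgroup `(I_P - 1) M`

`t (s - 1) x = (t s t⁻¹ - 1) t x` and `I_P` is normal in `D_P` (it is the image of a kernel:
`ValuationSubring.inertiaSubgroup` is `MonoidHom.ker …`, a normal subgroup of `D_P`).
-/

set_option autoImplicit false

namespace Fermat.Agent.S33.Soft

open IsLocalRing Fermat.Agent.S31

variable {M : Type} [AddCommGroup M] (gal : GQ →* AddMonoid.End M) (P : ValuationSubring Qb)

theorem inertia_le_decomposition {s : GQ} (hs : s ∈ P.inertiaSubgroupIn ℚ) :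
    s ∈ P.decompositionSubgroup ℚ := by
  obtain ⟨s', -, rfl⟩ := Subgroup.mem_map.1 hs
  exact s'.2

theorem Aug_conj_mem_map {G : Type*} [Group G] (D : Subgroup G) (I : Subgroup D) (hn : I.Normal)
    {s t : G} (hs : s ∈ I.map D.subtype) (ht : t ∈ D) : t * s * t⁻¹ ∈ I.map D.subtype := by
  obtain ⟨s', hs', rfl⟩ := Subgroup.mem_map.1 hs
  refine Subgroup.mem_map.2 ⟨(⟨t, ht⟩ : D) * s' * (⟨t, ht⟩)⁻¹, hn.conj_mem s' hs' _, ?_⟩
  rw [map_mul, map_mul, map_inv]
  rfl

theorem Aug_inertia_normal : (P.inertiaSubgroup ℚ).Normal := by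
  unfold ValuationSubring.inertiaSubgroup
  exact MonoidHom.normal_ker _

theorem conj_mem_inertia {s t : GQ} (hs : s ∈ P.inertiaSubgroupIn ℚ)
    (ht : t ∈ P.decompositionSubgroup ℚ) : t * s * t⁻¹ ∈ P.inertiaSubgroupIn ℚ := by
  exact Aug_conj_mem_map _ _ (Aug_inertia_normal P) hs ht

theorem sub_mem_aug {s : GQ} (hs : s ∈ P.inertiaSubgroupIn ℚ) (x : M) :
    gal s x - x ∈ aug gal P :=
  AddSubgroup.subset_closure ⟨s, hs, x, rfl⟩

theorem aug_gal_mem {t : GQ} (ht : t ∈ P.decompositionSubgroup ℚ) {x : M} (hx : x ∈ aug gal P) :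
    gal t x ∈ aug gal P := by
  induction hx using AddSubgroup.closure_induction with
  | mem y hy =>
    obtain ⟨s, hs, x, rfl⟩ := hy
    have h1 : gal t (gal s x - x) = gal (t * s * t⁻¹) (gal t x) - gal t x := by
      have h2 : gal (t * s * t⁻¹) (gal t x) = gal t (gal s x) := by
        change (gal (t * s * t⁻¹) * gal t) x = (gal t * gal s) x
        rw [← map_mul, ← map_mul, inv_mul_cancel_right]
      rw [map_sub, h2]
    rw [h1]
    exact sub_mem_aug gal P (conj_mem_inertia P hs ht) _
  | zero => rw [map_zero]; exact zero_mem _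
  | add y z _ _ hy hz => rw [map_add]; exact add_mem hy hz
  | neg y _ hy => rw [map_neg]; exact neg_mem hy

theorem aug_comm_mem (F : AddMonoid.End M) (hF : ∀ g : GQ, Commute F (gal g)) {x : M}
    (hx : x ∈ aug gal P) : F x ∈ aug gal P := by
  induction hx using AddSubgroup.closure_induction with
  | mem y hy =>
    obtain ⟨s, hs, x, rfl⟩ := hy
    have h1 : F (gal s x - x) = gal s (F x) - F x := by
      have h2 : F (gal s x) = gal s (F x) := by
        change (F * gal s) x = (gal s * F) x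
        rw [(hF s).eq]
      rw [map_sub, h2]
    rw [h1]
    exact sub_mem_aug gal P hs _
  | zero => rw [map_zero]; exact zero_mem _
  | add y z _ _ hy hz => rw [map_add]; exact add_mem hy hz
  | neg y _ hy => rw [map_neg]; exact neg_mem hy

end Fermat.Agent.S33.Soft
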