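import Fermat.Agent.S33.Soft.Aug

/-!
# S33 / Soft-ClaimAB : `σ0 - a` is nilpotent on the `I`-power torsion of `(I_P - 1) M`

`I := comap evT 𝔪`.

CLAIM A (`i = 1`).  Let `y ∈ aug` be killed by `I`.  Take `F` from `D.tr σ0`:
`evM F = σ0 + a σ0⁻¹` (`χ_σ0`), `evT F ≡ tr ρ(σ0) ≡ 1 + det ρ(σ0) ≡ 1 + a mod 𝔪` (`hk`, `h1`, `a_det`).
So `F - 1 - a ∈ I` and `(σ0 + a σ0⁻¹ - 1 - a) y = 0`; apply `σ0`: `(σ0 - 1)(σ0 - a) y = 0`.
`w := (σ0 - a) y ∈ aug` (`aug_gal_mem`, `inertia_le_decomposition`), `p • w = 0` (`(p : R) ∈ I`),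
`σ0 w = w`, so `w = 0` by `D.ord`.

CLAIM B (induction).  `x ∈ aug` killed by `I ^ (i + 1)`.  For `F ∈ I`, `evM F x ∈ aug`
(`aug_comm_mem`, `D.comm`) is killed by `I ^ i`, so `(σ0 - a) ^ i (evM F x) = 0`, i.e. (commutation)
`evM F ((σ0 - a) ^ i x) = 0`.  So `y := (σ0 - a) ^ i x ∈ aug` is killed by `I`; apply Claim A.
-/

set_option autoImplicit false

namespace Fermat.Agent.S33.Soft

open IsLocalRing Fermat.Agent.S31

variable {T : Type} [CommRing T] [IsLocalRing T] {ρ : GaloisRepAdic T} {p : ℕ}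
  {P : ValuationSubring Qb} {σ0 : GQ} {k : ℕ}

/-- `σ0 - a` preserves `(I_P - 1) M`. -/
theorem ClaimAB.sub_mem (D : Data ρ p P σ0 k) (hσ0 : σ0 ∈ P.inertiaSubgroupIn ℚ) {x : D.M}
    (hx : x ∈ aug D.gal P) : (D.gal σ0 - (D.a : AddMonoid.End D.M)) x ∈ aug D.gal P := by
  change D.gal σ0 x - D.a • x ∈ aug D.gal P
  exact (aug D.gal P).sub_mem (aug_gal_mem D.gal P (inertia_le_decomposition P hσ0) hx)
    ((aug D.gal P).nsmul_mem hx _)

theorem ClaimAB.pow_mem (D : Data ρ p P σ0 k) (hσ0 : σ0 ∈ P.inertiaSubgroupIn ℚ) (i : ℕ) {x : D.M}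
    (hx : x ∈ aug D.gal P) : ((D.gal σ0 - (D.a : AddMonoid.End D.M)) ^ i) x ∈ aug D.gal P := by
  induction i with
  | zero => simpa using hx
  | succ i ih =>
    rw [pow_succ']
    exact ClaimAB.sub_mem D hσ0 ih

/-- Claim A. -/
theorem ClaimAB.claimA (D : Data ρ p P σ0 k) (hk : 1 ≤ k) (hpT : (p : T) ∈ maximalIdeal T)
    (hσ0 : σ0 ∈ P.inertiaSubgroupIn ℚ)
    (h1 : LinearMap.trace T ρ.V (ρ.ρ σ0) - 1 - LinearMap.det (ρ.ρ σ0) ∈ maximalIdeal T)
    (y : D.M) (hy : y ∈ aug D.gal P)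
    (hI : ∀ F ∈ Ideal.comap D.evT (maximalIdeal T), D.evM F y = 0) :
    (D.gal σ0 - (D.a : AddMonoid.End D.M)) y = 0 := by
  obtain ⟨F, hF, hFT⟩ := D.tr σ0
  have hFT' : LinearMap.trace T ρ.V (ρ.ρ σ0) - D.evT F ∈ maximalIdeal T :=
    Ideal.pow_le_self (by omega) hFT
  have hmem : F - 1 - (D.a : D.R) ∈ Ideal.comap D.evT (maximalIdeal T) := by
    rw [Ideal.mem_comap, map_sub, map_sub, map_one, map_natCast]
    have h2 := (maximalIdeal T).add_mem ((maximalIdeal T).sub_mem h1 hFT') D.a_det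
    convert h2 using 1
    ring
  have h3 := hI _ hmem
  rw [map_sub, map_sub, map_one, map_natCast, hF, D.χ_σ0] at h3
  set s : AddMonoid.End D.M := D.gal σ0 with hs
  set s' : AddMonoid.End D.M := D.gal σ0⁻¹ with hs'
  have hss' : s * s' = 1 := by rw [hs, hs', ← map_mul, mul_inv_cancel, map_one]
  have h4 : (s - 1) * (s - (D.a : AddMonoid.End D.M))
      = s * (s + (D.a : AddMonoid.End D.M) * s' - 1 - (D.a : AddMonoid.End D.M)) := by
    have hc : s * ((D.a : AddMonoid.End D.M) * s') = (D.a : AddMonoid.End D.M) := by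
      rw [← mul_assoc, (Nat.cast_commute D.a s).symm.eq, mul_assoc, hss', mul_one]
    have hc2 : s * (D.a : AddMonoid.End D.M) = (D.a : AddMonoid.End D.M) * s :=
      (Nat.cast_commute D.a s).symm.eq
    have e1 : s * (s + (D.a : AddMonoid.End D.M) * s' - 1 - (D.a : AddMonoid.End D.M))
        = s * s + s * ((D.a : AddMonoid.End D.M) * s') - s - s * (D.a : AddMonoid.End D.M) := by
      noncomm_ring
    have e2 : (s - 1) * (s - (D.a : AddMonoid.End D.M))
        = s * s - s * (D.a : AddMonoid.End D.M) - s + (D.a : AddMonoid.End D.M) := by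
      noncomm_ring
    rw [e1, e2, hc]
    abel
  set w : D.M := (s - (D.a : AddMonoid.End D.M)) y with hw
  have h5 : (s - 1) w = 0 := by
    have : ((s - 1) * (s - (D.a : AddMonoid.End D.M))) y = 0 := by
      rw [h4, AddMonoid.End.coe_mul, Function.comp_apply, h3, map_zero]
    exact this
  have h6 : s w = w := by
    have : s w - w = 0 := h5
    exact sub_eq_zero.mp this
  have hpy : p • y = 0 := by
    have h7 := hI (p : D.R) (by rw [Ideal.mem_comap, map_natCast]; exact hpT)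
    rw [map_natCast] at h7
    exact h7
  have hpw : p • w = 0 := by
    rw [hw, ← map_nsmul, hpy, map_zero]
  exact D.ord w (ClaimAB.sub_mem D hσ0 hy) hpw h6

theorem claimAB (D : Data ρ p P σ0 k) (hk : 1 ≤ k) (hpT : (p : T) ∈ maximalIdeal T)
    (hσ0 : σ0 ∈ P.inertiaSubgroupIn ℚ)
    (h1 : LinearMap.trace T ρ.V (ρ.ρ σ0) - 1 - LinearMap.det (ρ.ρ σ0) ∈ maximalIdeal T)
    (i : ℕ) (x : D.M) (hx : x ∈ aug D.gal P)
    (hI : ∀ F ∈ (Ideal.comap D.evT (maximalIdeal T)) ^ i, D.evM F x = 0) :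
    ((D.gal σ0 - (D.a : AddMonoid.End D.M)) ^ i) x = 0 := by
  induction i generalizing x with
  | zero =>
    have := hI 1 (by rw [pow_zero, Ideal.one_eq_top]; exact Submodule.mem_top)
    rw [map_one] at this
    simpa using this
  | succ i ih =>
    rw [pow_succ']
    refine ClaimAB.claimA D hk hpT hσ0 h1 _ (ClaimAB.pow_mem D hσ0 i hx) fun F hF => ?_
    have hcomm : Commute (D.evM F) ((D.gal σ0 - (D.a : AddMonoid.End D.M)) ^ i) :=
      ((D.comm F σ0).sub_right (Nat.commute_cast _ _)).pow_right i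
    have h2 : ((D.gal σ0 - (D.a : AddMonoid.End D.M)) ^ i) (D.evM F x) = 0 := by
      refine ih _ (aug_comm_mem D.gal P _ (D.comm F) hx) fun G hG => ?_
      have h3 := hI (G * F) (by rw [pow_succ]; exact Ideal.mul_mem_mul hG hF)
      rw [map_mul] at h3
      exact h3
    have h4 : (D.evM F * (D.gal σ0 - (D.a : AddMonoid.End D.M)) ^ i) x = 0 := by
      rw [hcomm.eq]
      exact h2
    exact h4

end Fermat.Agent.S33.Soft
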