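import Fermat.Agent.S33.Soft.Defs

/-!
# S33 / Soft-Split : Hensel splitting of `f = ρ(σ0)`

`charpoly f = X² - tr f X + det f` (`FD.charpoly_rank_two`), which is `≡ (X - 1)(X - det f) mod 𝔪` by
`h1`, and `1` is a simple root mod `𝔪` by `h2`.  Hensel (`T` is `𝔪`-adically complete:
`IsAdicComplete.henselianRing`, `HenselianLocalRing`/`HenselianRing.is_henselian`) gives a root
`b ≡ 1`; put `a := tr f - b`; then `a b = det f`, `a ≡ det f`, `a - b` is a unit.  Cayley-Hamilton
(`LinearMap.aeval_self_charpoly`): `(f - a)(f - b) = 0`.  `ea := (a - b)⁻¹ (f - b)`,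
`eb := (b - a)⁻¹ (f - a)`.  Basis: `V = ea V ⊕ eb V`; both summands are finite projective, hence free
over the local ring `T`, of ranks `r_a + r_b = 2`; neither is `0` (otherwise `f = b` or `f = a` is a
scalar, `tr f = 2 b`, `det f = b²`: `a = b`, contradiction).  Alternatively: pick `v` with
`ea v ∉ 𝔪 V`, … (Nakayama), or work with the `2 × 2` matrix of `f`.
-/

set_option autoImplicit false

namespace Fermat.Agent.S33.Soft

open IsLocalRing Fermat.Agent.S31

/-- a family of two vectors whose determinant is a unit, as a basis. -/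
theorem Split_exists_basis {T : Type} [CommRing T] {V : Type} [AddCommGroup V] [Module T V]
    (w : Module.Basis (Fin 2) T V) (x y : V)
    (hdet : IsUnit (w.repr x 0 * w.repr y 1 - w.repr y 0 * w.repr x 1)) :
    ∃ v : Module.Basis (Fin 2) T V, v 0 = x ∧ v 1 = y := by
  have h : IsUnit (w.det ![x, y]) := by
    rw [Module.Basis.det_apply, Matrix.det_fin_two]
    simpa [Module.Basis.toMatrix_apply] using hdet
  obtain ⟨hli, hsp⟩ := (w.is_basis_iff_det).2 h
  exact ⟨Module.Basis.mk hli hsp.ge, by simp, by simp⟩

/-- complementary idempotents, one of trace one: adapted basis. -/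
theorem Split_basis {T : Type} [CommRing T] [IsLocalRing T] {V : Type} [AddCommGroup V] [Module T V]
    (w : Module.Basis (Fin 2) T V) (ea eb : Module.End T V) (hadd : ea + eb = 1)
    (hmul : ea * eb = 0) (hmul' : eb * ea = 0) (htr : LinearMap.trace T V ea = 1) :
    ∃ v : Module.Basis (Fin 2) T V, ea (v 0) = v 0 ∧ ea (v 1) = 0 ∧ eb (v 0) = 0 ∧
      eb (v 1) = v 1 := by
  have haa : ea * ea = ea := by
    have : ea * (ea + eb) = ea := by rw [hadd, mul_one]
    rwa [mul_add, hmul, add_zero] at this
  have hbb : eb * eb = eb := by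
    have : eb * (ea + eb) = eb := by rw [hadd, mul_one]
    rwa [mul_add, hmul', zero_add] at this
  have haa' : ∀ x, ea (ea x) = ea x := fun x => by rw [← Module.End.mul_apply, haa]
  have hbb' : ∀ x, eb (eb x) = eb x := fun x => by rw [← Module.End.mul_apply, hbb]
  have hab' : ∀ x, ea (eb x) = 0 := fun x => by rw [← Module.End.mul_apply, hmul]; rfl
  have hba' : ∀ x, eb (ea x) = 0 := fun x => by rw [← Module.End.mul_apply, hmul']; rfl
  have heb : ∀ x, eb x = x - ea x := fun x => by
    have := LinearMap.congr_fun hadd x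
    rw [LinearMap.add_apply, Module.End.one_apply] at this
    rw [eq_sub_iff_add_eq, add_comm]; exact this
  set E := LinearMap.toMatrix w w ea with hE
  have hEE : E * E = E := by rw [hE, ← LinearMap.toMatrix_mul, haa]
  have hEr : ∀ i j, w.repr (ea (w j)) i = E i j := fun i j => by
    rw [hE, LinearMap.toMatrix_apply]
  have h00 : E 0 0 * E 0 0 + E 0 1 * E 1 0 = E 0 0 := by
    have := congrFun (congrFun hEE 0) 0
    rwa [Matrix.mul_apply, Fin.sum_univ_two] at this
  have h11 : E 1 0 * E 0 1 + E 1 1 * E 1 1 = E 1 1 := by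
    have := congrFun (congrFun hEE 1) 1
    rwa [Matrix.mul_apply, Fin.sum_univ_two] at this
  have htr' : E 0 0 + E 1 1 = 1 := by
    rw [LinearMap.trace_eq_matrix_trace T w ea, Matrix.trace_fin_two] at htr
    exact htr
  have hw : ∀ i j : Fin 2, w.repr (w j) i = if j = i then 1 else 0 := fun i j => by
    rw [Module.Basis.repr_self, Finsupp.single_apply]
  rcases IsLocalRing.isUnit_or_isUnit_of_add_one htr' with hu | hu
  · obtain ⟨v, hv0, hv1⟩ := Split_exists_basis w (ea (w 0)) (eb (w 1)) (by
      rw [heb, map_sub, Finsupp.sub_apply, Finsupp.sub_apply, hEr, hEr, hEr, hEr, hw, hw]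
      have : E 0 0 * ((if (1 : Fin 2) = 1 then 1 else 0) - E 1 1)
          - ((if (1 : Fin 2) = 0 then 1 else 0) - E 0 1) * E 1 0 = E 0 0 := by
        simp only [if_true, Fin.isValue, one_ne_zero, if_false]
        linear_combination h00 - E 0 0 * htr'
      rw [this]; exact hu)
    exact ⟨v, by rw [hv0, haa'], by rw [hv1, hab'], by rw [hv0, hba'], by rw [hv1, hbb']⟩
  · obtain ⟨v, hv0, hv1⟩ := Split_exists_basis w (ea (w 1)) (eb (w 0)) (by
      rw [heb, map_sub, Finsupp.sub_apply, Finsupp.sub_apply, hEr, hEr, hEr, hEr, hw, hw]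
      have : E 0 1 * ((if (0 : Fin 2) = 1 then 1 else 0) - E 1 0)
          - ((if (0 : Fin 2) = 0 then 1 else 0) - E 0 0) * E 1 1 = - E 1 1 := by
        simp only [if_true, Fin.isValue, zero_ne_one, if_false]
        linear_combination (-1 : T) * h11 + E 1 1 * htr'
      rw [this]; exact hu.neg)
    exact ⟨v, by rw [hv0, haa'], by rw [hv1, hab'], by rw [hv0, hba'], by rw [hv1, hbb']⟩

theorem exists_isSplit {T : Type} [CommRing T] [IsLocalRing T]
    [IsAdicComplete (maximalIdeal T) T] {V : Type} [AddCommGroup V] [Module T V]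
    [Module.Free T V] [Module.Finite T V] (hV : Module.finrank T V = 2) (f : Module.End T V)
    (h1 : LinearMap.trace T V f - 1 - LinearMap.det f ∈ maximalIdeal T)
    (h2 : LinearMap.det f - 1 ∉ maximalIdeal T) :
    ∃ (a b : T) (ea eb : Module.End T V), IsSplit f a b ea eb := by
  set τ := LinearMap.trace T V f with hτ
  set δ := LinearMap.det f with hδ
  set P : Polynomial T := Polynomial.X ^ 2 - Polynomial.C τ * Polynomial.X + Polynomial.C δ with hP
  have hPm : P.Monic := by
    rw [hP]; monicity!
  have hev : P.eval 1 ∈ maximalIdeal T := by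
    have : P.eval 1 = - (τ - 1 - δ) := by rw [hP]; simp; ring
    rw [this]; exact neg_mem h1
  have hder : IsUnit (Ideal.Quotient.mk (maximalIdeal T) (P.derivative.eval 1)) := by
    have hd : P.derivative.eval 1 = - (δ - 1) - (τ - 1 - δ) := by
      rw [hP]; simp; ring
    apply IsUnit.map
    rw [← notMem_maximalIdeal, hd]
    intro hmem
    apply h2
    have := (maximalIdeal T).add_mem hmem h1
    rw [sub_add_cancel] at this
    simpa using neg_mem this
  obtain ⟨b, hb, hb1⟩ := HenselianRing.is_henselian (I := maximalIdeal T) P hPm 1 hev hder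
  have hroot : b ^ 2 - τ * b + δ = 0 := by
    have : P.eval b = 0 := hb
    rw [hP] at this
    simpa using this
  set a := τ - b with ha
  have haδ : a - δ ∈ maximalIdeal T := by
    have : a - δ = (τ - 1 - δ) - (b - 1) := by rw [ha]; ring
    rw [this]; exact sub_mem h1 hb1
  have hu : IsUnit (a - b) := by
    rw [← notMem_maximalIdeal]
    intro hmem
    apply h2
    have : δ - 1 = (a - b) - (a - δ) + (b - 1) := by ring
    rw [this]; exact add_mem (sub_mem hmem haδ) hb1
  obtain ⟨u, hu⟩ := hu
  have hui : (↑u⁻¹ : T) * (a - b) = 1 := by rw [← hu]; exact u.inv_mul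
  -- Cayley-Hamilton
  have hCH : f * f - τ • f + δ • (1 : Module.End T V) = 0 := by
    have := LinearMap.aeval_self_charpoly f
    rw [FD.charpoly_rank_two hV, ← hτ, ← hδ] at this
    simpa [pow_two, Algebra.algebraMap_eq_smul_one, smul_mul_assoc] using this
  set ea : Module.End T V := (↑u⁻¹ : T) • (f - b • (1 : Module.End T V)) with hea
  set eb : Module.End T V := (-(↑u⁻¹ : T)) • (f - a • (1 : Module.End T V)) with heb
  have hprod : (f - b • (1 : Module.End T V)) * (f - a • (1 : Module.End T V)) = 0 := by
    have : (f - b • (1 : Module.End T V)) * (f - a • (1 : Module.End T V))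
        = f * f - (a + b) • f + (a * b) • (1 : Module.End T V) := by
      simp only [sub_mul, mul_sub, smul_mul_assoc, mul_smul_comm, one_mul, mul_one]
      module
    rw [this, ← hCH]
    have e1 : a + b = τ := by rw [ha]; ring
    have e2 : a * b = δ := by rw [ha]; linear_combination (-1 : T) * hroot
    rw [e1, e2]
  have hprod' : (f - a • (1 : Module.End T V)) * (f - b • (1 : Module.End T V)) = 0 := by
    rw [← hprod]
    simp only [sub_mul, mul_sub, smul_mul_assoc, mul_smul_comm, one_mul, mul_one]
    module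
  have hadd : ea + eb = 1 := by
    have : ea + eb = ((↑u⁻¹ : T) * (a - b)) • (1 : Module.End T V) := by
      rw [hea, heb]
      module
    rw [this, hui, one_smul]
  have hmul : ea * eb = 0 := by
    rw [hea, heb, smul_mul_smul_comm, hprod, smul_zero]
  have hmul' : eb * ea = 0 := by
    rw [hea, heb, smul_mul_smul_comm, hprod', smul_zero]
  have heq : f = a • ea + b • eb := by
    have : a • ea + b • eb = ((↑u⁻¹ : T) * (a - b)) • f := by
      rw [hea, heb]
      module
    rw [this, hui, one_smul]
  have htr : LinearMap.trace T V ea = 1 := by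
    rw [hea, map_smul, map_sub, map_smul, LinearMap.trace_one, hV, ← hτ, smul_eq_mul, smul_eq_mul,
      ← hui]
    rw [ha]; push_cast; ring
  exact ⟨a, b, ea, eb, hb1, haδ, hadd, hmul, hmul', heq,
    Split_basis (Module.finBasisOfFinrankEq T V hV) ea eb hadd hmul hmul' htr⟩

end Fermat.Agent.S33.Soft
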