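import Fermat.Agent.S33.Soft.Defs

/-!
# S33 / Soft-SplitEb : rank one idempotents and the final line

* `eb_mul_eb` : in the basis `v` of `h.basis`, `eb = E₁₁`; `eb X eb = X₁₁ eb`, `tr (eb X) = X₁₁`.
* `line` : `L := T ∙ v 0 = range ea = ker eb`.
-/

set_option autoImplicit false

namespace Fermat.Agent.S33.Soft

open IsLocalRing Fermat.Agent.S31

variable {T : Type} [CommRing T] [IsLocalRing T] {V : Type} [AddCommGroup V] [Module T V]
  {f : Module.End T V} {a b : T} {ea eb : Module.End T V}

omit [IsLocalRing T] in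
/-- an endomorphism with `e (v 0) = 0`, `e (v 1) = v 1` is the second coordinate projection. -/
theorem SplitEb_apply_one (v : Module.Basis (Fin 2) T V) (e : Module.End T V) (h0 : e (v 0) = 0)
    (h1 : e (v 1) = v 1) (x : V) : e x = v.repr x 1 • v 1 := by
  conv_lhs => rw [← v.sum_repr x, Fin.sum_univ_two, map_add, map_smul, map_smul, h0, h1, smul_zero,
    zero_add]

omit [IsLocalRing T] in
/-- an endomorphism with `e (v 0) = v 0`, `e (v 1) = 0` is the first coordinate projection. -/
theorem SplitEb_apply_zero (v : Module.Basis (Fin 2) T V) (e : Module.End T V) (h0 : e (v 0) = v 0)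
    (h1 : e (v 1) = 0) (x : V) : e x = v.repr x 0 • v 0 := by
  conv_lhs => rw [← v.sum_repr x, Fin.sum_univ_two, map_add, map_smul, map_smul, h0, h1, smul_zero,
    add_zero]

theorem IsSplit.eb_mul_eb (h : IsSplit f a b ea eb) (X : Module.End T V) :
    eb * X * eb = LinearMap.trace T V (eb * X) • eb := by
  obtain ⟨v, -, -, h0, h1⟩ := h.basis
  have he := SplitEb_apply_one v eb h0 h1
  have htr : LinearMap.trace T V (eb * X) = v.repr (X (v 1)) 1 := by
    rw [LinearMap.trace_eq_matrix_trace T v, Matrix.trace_fin_two, LinearMap.toMatrix_apply,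
      LinearMap.toMatrix_apply, Module.End.mul_apply, Module.End.mul_apply, he (X (v 0)),
      he (X (v 1))]
    simp
  ext y
  rw [Module.End.mul_apply, Module.End.mul_apply, LinearMap.smul_apply, htr, he y, map_smul,
    map_smul, he (X (v 1)), smul_comm]

/-- the line `ea V`. -/
theorem IsSplit.line (h : IsSplit f a b ea eb) :
    ∃ L : Submodule T V, (∃ v : Module.Basis (Fin 2) T V, L = T ∙ v 0) ∧
      (∀ x : V, x ∈ L ↔ eb x = 0) ∧ (∀ x : V, x ∈ L ↔ ea x = x) := by
  obtain ⟨v, a0, a1, h0, h1⟩ := h.basis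
  have hea := SplitEb_apply_zero v ea a0 a1
  have hsum : ∀ x : V, ea x + eb x = x := fun x => by
    rw [← LinearMap.add_apply, h.add, Module.End.one_apply]
  refine ⟨T ∙ v 0, ⟨v, rfl⟩, fun x => ?_, fun x => ?_⟩
  · rw [Submodule.mem_span_singleton]
    constructor
    · rintro ⟨c, rfl⟩
      rw [map_smul, h0, smul_zero]
    · intro hx
      refine ⟨v.repr x 0, ?_⟩
      rw [← hea x]
      have := hsum x
      rwa [hx, add_zero] at this
  · rw [Submodule.mem_span_singleton]
    constructor
    · rintro ⟨c, rfl⟩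
      rw [map_smul, a0]
    · intro hx
      exact ⟨v.repr x 0, by rw [← hea x, hx]⟩

end Fermat.Agent.S33.Soft
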