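import Mathlib

/-!
# S33 / Soft-PowP : `p ^ r`-th powers

* `pow_p_pow_sub_mem` : `x ≡ y mod J`, `p ∈ J` ⟹ `x ^ p ^ r ≡ y ^ p ^ r mod J ^ (r + 1)`.
  (induction on `r`: `x ^ p - y ^ p = (x - y) * ∑ x ^ i y ^ (p - 1 - i)` and the sum is
  `≡ p y ^ (p - 1) mod (x - y)`; `Commute.mul_geom_sum₂`/`sub_dvd_pow_sub_pow`…)
* `pow_apply_eq` : apply the first in `ℤ[X]`, `J = (p, X - a)`; `J ^ (r + 1) ≤ (p ^ n, (X - a) ^ i)`
  as soon as `n + i ≤ r + 1`; evaluate at `u` (`Polynomial.aeval u`) and apply to `x`.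
* `one_sub_pow_unit` : in the residue field (of characteristic `p`),
  `a₀ ^ p ^ r - 1 = (a₀ - 1) ^ p ^ r ≠ 0` (`sub_pow_char_pow`).
-/

set_option autoImplicit false

namespace Fermat.Agent.S33.Soft

open IsLocalRing

theorem pow_p_pow_sub_mem {R : Type*} [CommRing R] (J : Ideal R) (p : ℕ) (hp : (p : R) ∈ J)
    {x y : R} (h : x - y ∈ J) (r : ℕ) : x ^ p ^ r - y ^ p ^ r ∈ J ^ (r + 1) := by
  induction r with
  | zero => simpa using h
  | succ r ih =>
    have hJ : x ^ p ^ r - y ^ p ^ r ∈ J := Ideal.pow_le_self (Nat.succ_ne_zero r) ih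
    have hsum : ∑ i ∈ Finset.range p, (x ^ p ^ r) ^ i * (y ^ p ^ r) ^ (p - 1 - i) ∈ J := by
      rw [← Ideal.Quotient.eq_zero_iff_mem, RingHom.map_geom_sum₂,
        (Ideal.Quotient.eq.mpr hJ : Ideal.Quotient.mk J (x ^ p ^ r) = Ideal.Quotient.mk J (y ^ p ^ r)),
        geom_sum₂_self, ← map_natCast (Ideal.Quotient.mk J), Ideal.Quotient.eq_zero_iff_mem.mpr hp,
        zero_mul]
    have hfac := (Commute.all (x ^ p ^ r) (y ^ p ^ r)).geom_sum₂_mul p
    rw [pow_succ p r, pow_mul, pow_mul, ← hfac, pow_succ' J (r + 1)]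
    exact Ideal.mul_mem_mul hsum ih

theorem pow_apply_eq {M : Type*} [AddCommGroup M] (u : AddMonoid.End M) (a p n i r : ℕ)
    (hr : n + i ≤ r + 1) (x : M) (hkill : p ^ n • x = 0)
    (hnil : ((u - (a : AddMonoid.End M)) ^ i) x = 0) :
    (u ^ p ^ r) x = (a ^ p ^ r) • x := by
  open Polynomial in
  have h1 : (X : ℤ[X]) ^ p ^ r - (a : ℤ[X]) ^ p ^ r
      ∈ (Ideal.span {(p : ℤ[X])} ⊔ Ideal.span {(X : ℤ[X]) - (a : ℤ[X])}) ^ (r + 1) :=
    pow_p_pow_sub_mem _ p (Ideal.mem_sup_left (Ideal.mem_span_singleton_self _))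
      (Ideal.mem_sup_right (Ideal.mem_span_singleton_self _)) r
  have h2 := Ideal.sup_pow_add_le_pow_sup_pow (Ideal.pow_le_pow_right hr h1)
  rw [Ideal.span_singleton_pow, Ideal.span_singleton_pow, Submodule.mem_sup] at h2
  obtain ⟨P, hP, Q, hQ, hPQ⟩ := h2
  obtain ⟨A, rfl⟩ := Ideal.mem_span_singleton'.mp hP
  obtain ⟨B, rfl⟩ := Ideal.mem_span_singleton'.mp hQ
  have h3 := congrArg (fun F => (Polynomial.aeval u F) x) hPQ
  simp only [map_add, map_mul, map_pow, map_sub, map_natCast, Polynomial.aeval_X] at h3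
  have hmul : ∀ f g : AddMonoid.End M, (f * g) x = f (g x) := fun _ _ => rfl
  have hadd : ∀ f g : AddMonoid.End M, (f + g) x = f x + g x := fun _ _ => rfl
  have hsub : ∀ f g : AddMonoid.End M, (f - g) x = f x - g x := fun _ _ => rfl
  have e1 : ((Polynomial.aeval u A) * (p : AddMonoid.End M) ^ n) x = 0 := by
    rw [hmul, ← Nat.cast_pow, AddMonoid.End.natCast_apply, hkill, map_zero]
  have e2 : ((Polynomial.aeval u B) * (u - (a : AddMonoid.End M)) ^ i) x = 0 := by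
    rw [hmul, hnil, map_zero]
  rw [hadd, e1, e2, add_zero, hsub, eq_comm, sub_eq_zero,
    ← Nat.cast_pow, AddMonoid.End.natCast_apply] at h3
  exact h3

theorem one_sub_pow_unit {T : Type*} [CommRing T] [IsLocalRing T] {p : ℕ} (hp : p.Prime)
    (hpT : (p : T) ∈ maximalIdeal T) (a₀ : ℕ) (d : T) (hd : d - (a₀ : T) ∈ maximalIdeal T)
    (h2 : d - 1 ∉ maximalIdeal T) (r : ℕ) : IsUnit (1 - ((a₀ ^ p ^ r : ℕ) : T)) := by
  have hchar : CharP (ResidueField T) p := by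
    rw [CharP.charP_iff_prime_eq_zero hp, ← map_natCast (residue T)]
    exact (residue_eq_zero_iff _).mpr hpT
  have : Fact p.Prime := ⟨hp⟩
  by_contra hu
  have h3 : (1 - ((a₀ ^ p ^ r : ℕ) : T)) ∈ maximalIdeal T := (mem_maximalIdeal _).mpr hu
  have h4 := (residue_eq_zero_iff _).mpr h3
  have h5 : residue T d = residue T (a₀ : T) := by
    rw [← sub_eq_zero, ← map_sub]
    exact (residue_eq_zero_iff _).mpr hd
  rw [map_sub, map_one, Nat.cast_pow, map_pow, ← h5, ← one_pow (p ^ r), ← sub_pow_char_pow] at h4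
  have h6 : 1 - residue T d = 0 := eq_zero_of_pow_eq_zero h4
  apply h2
  rw [← residue_eq_zero_iff, map_sub, map_one]
  linear_combination -h6

/-- an integer which is a unit in `T` is invertible on a group killed by `p ^ n`. -/
theorem exists_inv_end {T : Type*} [CommRing T] [IsLocalRing T] {p : ℕ} (hp : p.Prime)
    (hpT : (p : T) ∈ maximalIdeal T) {M : Type*} [AddCommGroup M] (n : ℕ)
    (hkill : ∀ x : M, p ^ n • x = 0) (z : ℕ) (hz : IsUnit (1 - (z : T))) :
    ∃ v : ℕ, (v : AddMonoid.End M) * ((z : AddMonoid.End M) - 1) = 1 := by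
  have hndvd : ¬ (p : ℤ) ∣ (z : ℤ) - 1 := by
    rintro ⟨c, hc⟩
    have h1 : (1 - (z : T)) = (p : T) * (-(c : T)) := by
      have := congrArg (Int.cast : ℤ → T) hc
      push_cast at this
      linear_combination -this
    have h2 : (1 - (z : T)) ∈ maximalIdeal T := by
      rw [h1]
      exact Ideal.mul_mem_right _ _ hpT
    exact (mem_maximalIdeal _).mp h2 hz
  have hcop : IsCoprime ((z : ℤ) - 1) ((p : ℤ) ^ n) :=
    (((Nat.prime_iff_prime_int.mp hp).irreducible.coprime_iff_not_dvd).mpr hndvd).symm.pow_right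
  obtain ⟨A, B, hAB⟩ := hcop
  have hp0 : ((p : AddMonoid.End M)) ^ n = 0 := by
    ext x
    rw [← Nat.cast_pow, AddMonoid.End.natCast_apply, hkill]
    rfl
  have hpos : (0 : ℤ) < (p : ℤ) ^ n := by
    have := hp.pos
    positivity
  refine ⟨(A % (p : ℤ) ^ n).toNat, ?_⟩
  have hv : (((A % (p : ℤ) ^ n).toNat : ℕ) : ℤ) = A - (p : ℤ) ^ n * (A / (p : ℤ) ^ n) := by
    rw [Int.toNat_of_nonneg (Int.emod_nonneg _ hpos.ne'), Int.emod_def]
  have hv' : (((A % (p : ℤ) ^ n).toNat : ℕ) : AddMonoid.End M) = (A : AddMonoid.End M) := by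
    have := congrArg (Int.cast : ℤ → AddMonoid.End M) hv
    push_cast at this
    rw [this, hp0, zero_mul, sub_zero]
  have hAB' := congrArg (Int.cast : ℤ → AddMonoid.End M) hAB
  push_cast at hAB'
  rw [hp0, mul_zero, add_zero] at hAB'
  rw [hv', hAB']

end Fermat.Agent.S33.Soft
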