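import Fermat.Agent.S33.Soft.Defs
import Fermat.Agent.S33.Soft.PowP

/-!
# S33 / Soft-SplitTr : traces and the idempotents

`f ^ m = a ^ m ea + b ^ m eb`.  With `m = p ^ r`, `z = a₀ ^ m`: `a ≡ det f ≡ a₀`, `b ≡ 1 mod 𝔪`, so
`α := a ^ m - z` and `β := b ^ m - 1` lie in `𝔪 ^ (r + 1) ≤ 𝔪 ^ k` (`pow_p_pow_sub_mem`), and
`f ^ m - z = α ea + (1 - z + β) eb`, `f ^ m - 1 = (z - 1 + α) ea + β eb`   (`ea + eb = 1`).
Expand; all the terms containing `α` or `β` have trace in `𝔪 ^ k`.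
-/

set_option autoImplicit false

namespace Fermat.Agent.S33.Soft

open IsLocalRing Fermat.Agent.S31

variable {T : Type} [CommRing T] [IsLocalRing T] {V : Type} [AddCommGroup V] [Module T V]
  {f : Module.End T V} {a b : T} {ea eb : Module.End T V}

theorem IsSplit.pow (h : IsSplit f a b ea eb) (m : ℕ) (hm : m ≠ 0) :
    f ^ m = a ^ m • ea + b ^ m • eb := by
  have haa : ea * ea = ea := by
    have h1 : ea * (ea + eb) = ea := by rw [h.add, mul_one]
    rwa [mul_add, h.mul, add_zero] at h1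
  have hbb : eb * eb = eb := by
    have h1 : eb * (ea + eb) = eb := by rw [h.add, mul_one]
    rwa [mul_add, h.mul', zero_add] at h1
  obtain ⟨n, rfl⟩ := Nat.exists_eq_succ_of_ne_zero hm
  induction n with
  | zero => simpa using h.eq
  | succ n ih =>
    rw [pow_succ, ih (Nat.succ_ne_zero n)]
    conv_lhs => rw [h.eq]
    simp only [Nat.succ_eq_add_one, add_mul, mul_add, smul_mul_smul_comm, haa, hbb, h.mul, h.mul',
      smul_zero, add_zero, zero_add, ← pow_succ]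

/-- (helper) the two error terms. -/
theorem IsSplit.SplitTr_aux (h : IsSplit f a b ea eb) (p : ℕ) (hp : p ≠ 0)
    (hpT : (p : T) ∈ maximalIdeal T)
    (a₀ : ℕ) (ha₀ : LinearMap.det f - (a₀ : T) ∈ maximalIdeal T) (r k : ℕ) (hkr : k ≤ r + 1) :
    ∃ α β : T, α ∈ maximalIdeal T ^ k ∧ β ∈ maximalIdeal T ^ k ∧
      f ^ p ^ r - ((a₀ ^ p ^ r : ℕ) : Module.End T V)
        = α • ea + (1 - ((a₀ ^ p ^ r : ℕ) : T) + β) • eb ∧
      f ^ p ^ r - 1 = (((a₀ ^ p ^ r : ℕ) : T) - 1 + α) • ea + β • eb := by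
  have hle : maximalIdeal T ^ (r + 1) ≤ maximalIdeal T ^ k := Ideal.pow_le_pow_right hkr
  have h1 : a - (a₀ : T) ∈ maximalIdeal T := by
    have := (maximalIdeal T).add_mem h.ha ha₀
    rwa [sub_add_sub_cancel] at this
  have hα := pow_p_pow_sub_mem (maximalIdeal T) p hpT h1 r
  have hβ := pow_p_pow_sub_mem (maximalIdeal T) p hpT h.hb r
  rw [one_pow] at hβ
  have hz : ((a₀ ^ p ^ r : ℕ) : T) = (a₀ : T) ^ p ^ r := by push_cast; rfl
  have hzE : ((a₀ ^ p ^ r : ℕ) : Module.End T V) = ((a₀ ^ p ^ r : ℕ) : T) • (ea + eb) := by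
    rw [h.add, ← Algebra.algebraMap_eq_smul_one, map_natCast]
  refine ⟨a ^ p ^ r - (a₀ : T) ^ p ^ r, b ^ p ^ r - 1, hle hα, hle hβ, ?_, ?_⟩
  · rw [h.pow _ (pow_ne_zero r hp), hzE, hz]
    module
  · rw [h.pow _ (pow_ne_zero r hp), hz]
    conv_lhs => rw [← h.add]
    module

omit [IsLocalRing T] in
/-- (helper) expansion of the trace. -/
theorem SplitTr_trace_expand (u₁ u₂ w₁ w₂ : T) (ea eb X Y : Module.End T V) :
    LinearMap.trace T V ((u₁ • ea + u₂ • eb) * X * (w₁ • ea + w₂ • eb) * Y)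
      = u₁ * w₁ * LinearMap.trace T V (ea * X * ea * Y)
        + u₁ * w₂ * LinearMap.trace T V (ea * X * eb * Y)
        + u₂ * w₁ * LinearMap.trace T V (eb * X * ea * Y)
        + u₂ * w₂ * LinearMap.trace T V (eb * X * eb * Y) := by
  simp only [add_mul, mul_add, smul_mul_assoc, mul_smul_comm, smul_smul, smul_add, map_add,
    map_smul, smul_eq_mul]
  ring

theorem IsSplit.trace_T1 (h : IsSplit f a b ea eb) (p : ℕ) (hp : p ≠ 0)
    (hpT : (p : T) ∈ maximalIdeal T)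
    (a₀ : ℕ) (ha₀ : LinearMap.det f - (a₀ : T) ∈ maximalIdeal T) (r k : ℕ) (hkr : k ≤ r + 1)
    (X Y : Module.End T V) :
    LinearMap.trace T V
        ((f ^ p ^ r - ((a₀ ^ p ^ r : ℕ) : Module.End T V)) * X * (f ^ p ^ r - 1) * Y) +
      (1 - ((a₀ ^ p ^ r : ℕ) : T)) ^ 2 * LinearMap.trace T V (eb * X * ea * Y) ∈
      maximalIdeal T ^ k := by
  obtain ⟨α, β, hα, hβ, h1, h2⟩ := h.SplitTr_aux p hp hpT a₀ ha₀ r k hkr
  rw [h1, h2, SplitTr_trace_expand]
  generalize ((a₀ ^ p ^ r : ℕ) : T) = z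
  generalize LinearMap.trace T V (ea * X * ea * Y) = t₁
  generalize LinearMap.trace T V (ea * X * eb * Y) = t₂
  generalize LinearMap.trace T V (eb * X * ea * Y) = t₃
  generalize LinearMap.trace T V (eb * X * eb * Y) = t₄
  have h3 : α * (z - 1 + α) * t₁ + α * β * t₂ + (1 - z + β) * (z - 1 + α) * t₃
      + (1 - z + β) * β * t₄ + (1 - z) ^ 2 * t₃
      = α * ((z - 1 + α) * t₁ + β * t₂ + (1 - z) * t₃)
        + β * ((z - 1 + α) * t₃ + (1 - z + β) * t₄) := by ring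
  rw [h3]
  exact Ideal.add_mem _ (Ideal.mul_mem_right _ _ hα) (Ideal.mul_mem_right _ _ hβ)

theorem IsSplit.trace_T2 (h : IsSplit f a b ea eb) (p : ℕ) (hp : p ≠ 0)
    (hpT : (p : T) ∈ maximalIdeal T)
    (a₀ : ℕ) (ha₀ : LinearMap.det f - (a₀ : T) ∈ maximalIdeal T) (r k : ℕ) (hkr : k ≤ r + 1)
    (X : Module.End T V) :
    LinearMap.trace T V ((f ^ p ^ r - ((a₀ ^ p ^ r : ℕ) : Module.End T V)) * X) -
      (1 - ((a₀ ^ p ^ r : ℕ) : T)) * LinearMap.trace T V (eb * X) ∈ maximalIdeal T ^ k := by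
  obtain ⟨α, β, hα, hβ, h1, -⟩ := h.SplitTr_aux p hp hpT a₀ ha₀ r k hkr
  rw [h1]
  simp only [add_mul, smul_mul_assoc, map_add, map_smul, smul_eq_mul]
  generalize ((a₀ ^ p ^ r : ℕ) : T) = z
  generalize LinearMap.trace T V (ea * X) = t₁
  generalize LinearMap.trace T V (eb * X) = t₂
  have h3 : α * t₁ + ((1 - z) * t₂ + β * t₂) - (1 - z) * t₂ = α * t₁ + β * t₂ := by ring
  rw [h3]
  exact Ideal.add_mem _ (Ideal.mul_mem_right _ _ hα) (Ideal.mul_mem_right _ _ hβ)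

end Fermat.Agent.S33.Soft
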