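import Fermat.Agent.S33.Soft.Defs

/-!
# S33 / Soft-T1 : the first trace identity

Write `u = gal σ1`, `τ = gal t`, `γ = gal g`, `P = evM P₀` (commutes with everything), `χ` central
(values are natural numbers).  `X := (u - z) τ (u - 1) γ = uτuγ - uτγ - z τuγ + z τγ`.
Take `F₁ F₂ F₃ F₄` from `D.tr` for `σ1 * t * σ1 * g`, `σ1 * t * g`, `t * σ1 * g`, `t * g` and
`F := F₁ - F₂ - z F₃ + z F₄`.  Then `evM F = X + X'` with (`χ σ1 = z`)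
`X' = χ(t) χ(g) z γ⁻¹ u⁻¹ (u - z) τ⁻¹ u⁻¹ (u - 1)`
(indeed `(u - z)^ι = z u⁻¹ - z = - z u⁻¹ (u - 1)`, `(u - 1)^ι = z u⁻¹ - 1 = - u⁻¹ (u - z)`).
`X P = (u - z) τ (u - 1) P γ = 0` by `h1`, `X' P = 0` by `h2`.  So `evM (F * P₀) = 0`,
`evT F * evT P₀ ∈ 𝔪 ^ k` (`D.faith`), `evT F ∈ 𝔪 ^ k` (`hP₀`), and
`tr ρ(X) = ∑ ± tr ρ(gᵢ) ≡ evT F mod 𝔪 ^ k`.
-/

set_option autoImplicit false

namespace Fermat.Agent.S33.Soft

open IsLocalRing Fermat.Agent.S31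

/-- the ring identity behind `T1`. -/
theorem T1_ring {E : Type*} [Ring E] (u ui τ τi γ γi P : E) (z c d : ℕ)
    (hu : ui * u = 1) (hPγ : P * γ = γ * P)
    (h1 : (u - (z : E)) * τ * (u - 1) * P = 0)
    (h2 : (u - (z : E)) * (τi * ui) * (u - 1) * P = 0) :
    ((u * τ * u * γ + (z : E) * (c : E) * (z : E) * (d : E) * (γi * ui * τi * ui))
      - (u * τ * γ + (z : E) * (c : E) * (d : E) * (γi * τi * ui))
      - (z : E) * (τ * u * γ + (c : E) * (z : E) * (d : E) * (γi * ui * τi))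
      + (z : E) * (τ * γ + (c : E) * (d : E) * (γi * τi))) * P = 0 := by
  have e1 : ((u * τ * u * γ + (z : E) * (c : E) * (z : E) * (d : E) * (γi * ui * τi * ui))
      - (u * τ * γ + (z : E) * (c : E) * (d : E) * (γi * τi * ui))
      - (z : E) * (τ * u * γ + (c : E) * (z : E) * (d : E) * (γi * ui * τi))
      + (z : E) * (τ * γ + (c : E) * (d : E) * (γi * τi))) * P
      = ((u - (z : E)) * τ * (u - 1) * P) * γ
        + (z * c * d) • (γi * ui * ((u - (z : E)) * (τi * ui) * (u - 1) * P)) := by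
    have hu' : ∀ x : E, ui * (u * x) = x := fun x => by rw [← mul_assoc, hu, one_mul]
    have hP' : ∀ x : E, x * P * γ = x * γ * P := fun x => by rw [mul_assoc, hPγ, mul_assoc]
    rw [hP']
    simp only [← nsmul_eq_mul, add_mul, mul_add, sub_mul, mul_sub, mul_assoc, mul_smul_comm,
      smul_mul_assoc, mul_one, hu', smul_sub]
    module
  rw [e1, h1, h2]
  simp

variable {T : Type} [CommRing T] [IsLocalRing T] {ρ : GaloisRepAdic T} {p : ℕ}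
  {P : ValuationSubring Qb} {σ0 : GQ} {k : ℕ}

theorem T1 (D : Data ρ p P σ0 k) (P₀ : D.R) (hP₀ : IsUnit (D.evT P₀)) (σ1 : GQ) (z : ℕ)
    (hz : D.χ σ1 = (z : AddMonoid.End D.M)) (t g : GQ)
    (h1 : (D.gal σ1 - (z : AddMonoid.End D.M)) * D.gal t * (D.gal σ1 - 1) * D.evM P₀ = 0)
    (h2 : (D.gal σ1 - (z : AddMonoid.End D.M)) * D.gal (t⁻¹ * σ1⁻¹) * (D.gal σ1 - 1) * D.evM P₀
      = 0) :
    LinearMap.trace T ρ.V
      ((ρ.ρ σ1 - (z : Module.End T ρ.V)) * ρ.ρ t * (ρ.ρ σ1 - 1) * ρ.ρ g) ∈ maximalIdeal T ^ k := by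
  obtain ⟨F₁, hF₁, hT₁⟩ := D.tr (σ1 * t * σ1 * g)
  obtain ⟨F₂, hF₂, hT₂⟩ := D.tr (σ1 * t * g)
  obtain ⟨F₃, hF₃, hT₃⟩ := D.tr (t * σ1 * g)
  obtain ⟨F₄, hF₄, hT₄⟩ := D.tr (t * g)
  obtain ⟨c, hc⟩ := D.χ_nat t
  obtain ⟨d, hd⟩ := D.χ_nat g
  have hu : D.gal σ1⁻¹ * D.gal σ1 = 1 := by rw [← map_mul, inv_mul_cancel, map_one]
  rw [map_mul] at h2
  have key := T1_ring (D.gal σ1) (D.gal σ1⁻¹) (D.gal t) (D.gal t⁻¹) (D.gal g) (D.gal g⁻¹)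
    (D.evM P₀) z c d hu (D.comm P₀ g) h1 h2
  have hev : D.evM ((F₁ - F₂ - (z : D.R) * F₃ + (z : D.R) * F₄) * P₀) = 0 := by
    rw [map_mul, map_add, map_sub, map_sub, map_mul, map_mul, map_natCast, hF₁, hF₂, hF₃, hF₄,
      ← key]
    simp only [map_mul, mul_inv_rev, hz, hc, hd, mul_assoc]
  have h3 := D.faith _ hev
  rw [map_mul] at h3
  have h4 : D.evT (F₁ - F₂ - (z : D.R) * F₃ + (z : D.R) * F₄) ∈ maximalIdeal T ^ k := by
    obtain ⟨w, hw⟩ := hP₀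
    have := Ideal.mul_mem_right (↑w⁻¹ : T) _ h3
    rwa [← hw, mul_assoc, Units.mul_inv, mul_one] at this
  have h5 : (ρ.ρ σ1 - (z : Module.End T ρ.V)) * ρ.ρ t * (ρ.ρ σ1 - 1) * ρ.ρ g
      = ρ.ρ (σ1 * t * σ1 * g) - ρ.ρ (σ1 * t * g) - (z : T) • ρ.ρ (t * σ1 * g)
        + (z : T) • ρ.ρ (t * g) := by
    simp only [map_mul, Nat.cast_smul_eq_nsmul, ← nsmul_eq_mul, sub_mul, mul_sub, mul_assoc,
      mul_smul_comm, smul_mul_assoc, mul_one, one_mul, smul_sub]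
    module
  rw [h5, map_add, map_sub, map_sub, map_smul, map_smul]
  have h6 : LinearMap.trace T ρ.V (ρ.ρ (σ1 * t * σ1 * g)) - LinearMap.trace T ρ.V (ρ.ρ (σ1 * t * g))
      - (z : T) • LinearMap.trace T ρ.V (ρ.ρ (t * σ1 * g))
      + (z : T) • LinearMap.trace T ρ.V (ρ.ρ (t * g))
      = (LinearMap.trace T ρ.V (ρ.ρ (σ1 * t * σ1 * g)) - D.evT F₁)
        - (LinearMap.trace T ρ.V (ρ.ρ (σ1 * t * g)) - D.evT F₂)
        - (z : T) * (LinearMap.trace T ρ.V (ρ.ρ (t * σ1 * g)) - D.evT F₃)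
        + (z : T) * (LinearMap.trace T ρ.V (ρ.ρ (t * g)) - D.evT F₄)
        + D.evT (F₁ - F₂ - (z : D.R) * F₃ + (z : D.R) * F₄) := by
    simp only [map_add, map_sub, map_mul, map_natCast, smul_eq_mul]
    ring
  rw [h6]
  exact Ideal.add_mem _ (Ideal.add_mem _ (Ideal.sub_mem _ (Ideal.sub_mem _ hT₁ hT₂)
    (Ideal.mul_mem_left _ _ hT₃)) (Ideal.mul_mem_left _ _ hT₄)) h4

end Fermat.Agent.S33.Soft
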