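import Fermat.Agent.S33.Soft.Defs

/-!
# S33 / Soft-T2 : the second trace identity

Write `u = gal σ1`, `P = evM P₀`.  `X := (u - z)(s - 1) = u s - u - z s + z`; `h := F_{σ1 s} - F_{σ1}
- z F_s + z F_1` (from `D.tr`), `evM h = X + X'`, `X' = (χ(s) s⁻¹ - 1)(- z u⁻¹)(u - 1)`.

Let `M' :=` the subgroup generated by the `γ ((u - z) (P x))`, `γ = gal g`, `x : M`.  It is stable
under `gal` and under the Hecke operators.
(a) `evM h` kills `M'`: it commutes with `gal`; `X (u - z) P = (u - z)(s - 1) P (u - z) = 0` (`h1`);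
    `X' (u - z) P = (…)(u - 1)(u - z) P = 0` (`h3`; `u - 1` and `u - z` commute).
(b) for `y ∈ P M`: `u y ≡ z y` and `z u⁻¹ y ≡ y mod M'`.  Hence for `c_g := v (F_{σ1 g} - F_g)`:
    `F_{σ1 g} y = u γ y + z χ(g) γ⁻¹ u⁻¹ y ≡ z γ y + χ(g) γ⁻¹ y`, `F_g y = γ y + χ(g) γ⁻¹ y`, so
    `γ y ≡ evM c_g y mod M'`   (`hv`).
(c) so `γ₁ γ₂ y ≡ c₂ c₁ y ≡ γ₂ γ₁ y mod M'` for `y ∈ P M` (Hecke operators commute: `R` is
    commutative), and `P₁ := F_{g1 g2 g3} - F_{g2 g1 g3}` maps `P M` into `M'`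
    (also for the inverses; `χ (g1 g2 g3) = χ (g2 g1 g3)`).
(d) `evM (h * P₁ * P₀) = 0`, so `evT h * evT P₁ * evT P₀ ∈ 𝔪 ^ k`; `evT P₁ ≡ tr([ρ g1, ρ g2] ρ g3)`
    mod `𝔪 ^ k ≤ 𝔪` is a unit; so `evT h ∈ 𝔪 ^ k`, and `tr ρ(X) ≡ evT h`.
-/

set_option autoImplicit false

namespace Fermat.Agent.S33.Soft

open IsLocalRing Fermat.Agent.S31

section abstract

variable {E : Type*} [Ring E]

/-- `A` lies in the "ideal" `{A | H A P = 0}` (this replaces "maps `P M` into `M'`" of the header: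
`evM h` kills `M'`). -/
def T2InN (H P A : E) : Prop := H * A * P = 0

theorem T2InN.add {H P A B : E} (hA : T2InN H P A) (hB : T2InN H P B) : T2InN H P (A + B) := by
  unfold T2InN at *
  rw [mul_add, add_mul, hA, hB, add_zero]

theorem T2InN.neg {H P A : E} (hA : T2InN H P A) : T2InN H P (-A) := by
  unfold T2InN at *
  rw [mul_neg, neg_mul, hA, neg_zero]

theorem T2InN.sub {H P A B : E} (hA : T2InN H P A) (hB : T2InN H P B) : T2InN H P (A - B) := by
  rw [sub_eq_add_neg]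
  exact hA.add hB.neg

theorem T2InN.mul_left {H P A B : E} (hA : T2InN H P A) (hB : Commute B H) :
    T2InN H P (B * A) := by
  unfold T2InN at *
  rw [← mul_assoc, ← hB.eq, mul_assoc, mul_assoc, ← mul_assoc H, hA, mul_zero]

theorem T2InN.mul_right {H P A B : E} (hA : T2InN H P A) (hB : Commute B P) :
    T2InN H P (A * B) := by
  unfold T2InN at *
  rw [← mul_assoc, mul_assoc, hB.eq, ← mul_assoc, hA, zero_mul]

theorem T2_kill {G R : Type*} [Group G] [CommRing R] (gal : G →* E) (evM : R →+* E) (χ : G →* E)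
    (comm : ∀ (F : R) (g : G), Commute (evM F) (gal g)) (χ_nat : ∀ g : G, ∃ e : ℕ, χ g = (e : E))
    (F : G → R) (hF : ∀ g, evM (F g) = gal g + χ g * gal g⁻¹) (P₀ : R) (σ1 : G) (z : ℕ)
    (hz : χ σ1 = (z : E)) (v : ℕ) (hv : (v : E) * ((z : E) - 1) = 1) (s : G)
    (h1 : (gal σ1 - (z : E)) * (gal s - 1) * evM P₀ = 0)
    (h3 : (gal σ1 - (z : E)) * (gal σ1 - 1) * evM P₀ = 0) (g1 g2 g3 : G) :
    evM ((F (σ1 * s) - F σ1 - (z : R) * F s + (z : R) * F 1) *
      (F (g1 * g2 * g3) - F (g2 * g1 * g3)) * P₀) = 0 := by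
  set h : R := F (σ1 * s) - F σ1 - (z : R) * F s + (z : R) * F 1 with hh
  set H : E := evM h with hH
  set P : E := evM P₀ with hP
  set u : E := gal σ1 with hu
  set u' : E := gal σ1⁻¹ with hu'
  have hu'u : u' * u = 1 := by rw [hu, hu', ← map_mul, inv_mul_cancel, map_one]
  -- commutation
  have cHg : ∀ g, Commute (gal g) H := fun g => (comm _ g).symm
  have cPg : ∀ g, Commute (gal g) P := fun g => (comm _ g).symm
  have cHe : ∀ a, Commute (evM a) H := fun a => (Commute.all a h).map evM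
  have cPe : ∀ a, Commute (evM a) P := fun a => (Commute.all a P₀).map evM
  have cHn : ∀ n : ℕ, Commute (n : E) H := fun n => Nat.cast_commute n H
  -- the expansion of `H`
  obtain ⟨e, he⟩ := χ_nat s
  have Hexp : H = (u - (z : E)) * (gal s - 1) +
      ((e : E) * gal s⁻¹ - 1) * (-((z : E) * u')) * (u - 1) := by
    have e1 : H = (u * gal s + (z : E) * (e : E) * (gal s⁻¹ * u')) - (u + (z : E) * u')
        - (z : E) * (gal s + (e : E) * gal s⁻¹) + (z : E) * (1 + 1 * 1) := by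
      rw [hH, hh, map_add, map_sub, map_sub, map_mul, map_mul, map_natCast, hF, hF, hF, hF,
        map_mul gal, map_mul χ, hz, he, mul_inv_rev, map_mul gal, inv_one, map_one, map_one]
    rw [e1]
    have hz1 : (z : E) = z • (1 : E) := (nsmul_one z).symm
    have he1 : (e : E) = e • (1 : E) := (nsmul_one e).symm
    have key : ((e : E) * gal s⁻¹ - 1) * (-((z : E) * u')) * (u - 1) =
        ((e : E) * gal s⁻¹ - 1) * (-((z : E) * (u' * u)) + (z : E) * u') := by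
      rw [mul_assoc ((e : E) * gal s⁻¹ - 1)]
      congr 1
      noncomm_ring
    rw [key, hu'u, hz1, he1]
    simp only [mul_add, sub_mul, mul_sub, mul_neg, smul_mul_assoc,
      mul_smul_comm, one_mul, mul_one]
    module
  -- (a)
  have Na : T2InN H P (u - (z : E)) := by
    have c1 : Commute (u - (z : E)) P := (cPg σ1).sub_left (Nat.cast_commute z P)
    have c2 : Commute (u - 1) (u - (z : E)) :=
      (((Commute.refl u).sub_left (Commute.one_left u))).sub_right (Nat.commute_cast (u - 1) z)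
    unfold T2InN
    rw [Hexp, add_mul, add_mul]
    have t1 : (u - (z : E)) * (gal s - 1) * (u - (z : E)) * P = 0 := by
      rw [mul_assoc, c1.eq, ← mul_assoc, h1, zero_mul]
    have t2 : ((e : E) * gal s⁻¹ - 1) * (-((z : E) * u')) * (u - 1) * (u - (z : E)) * P = 0 := by
      rw [mul_assoc _ (u - 1), c2.eq, mul_assoc _ _ P, h3, mul_zero]
    rw [t1, t2, add_zero]
  -- (b)
  set c : G → R := fun g => (v : R) * (F (σ1 * g) - F g) with hc
  have Nb : ∀ g, T2InN H P (gal g - evM (c g)) := by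
    intro g
    obtain ⟨e', he'⟩ := χ_nat g
    have e1 : evM (c g) = (v : E) * ((u * gal g + (z : E) * (e' : E) * (gal g⁻¹ * u')) -
        (gal g + (e' : E) * gal g⁻¹)) := by
      rw [hc]
      simp only []
      rw [map_mul, map_natCast, map_sub, hF, hF, map_mul gal, map_mul χ, hz, he', mul_inv_rev,
        map_mul gal]
    have e2 : gal g - evM (c g) = -((v : E) * ((u - (z : E)) * gal g)) +
        (v : E) * ((e' : E) * (gal g⁻¹ * (u' * (u - (z : E))))) := by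
      have hv' : gal g = (v : E) * ((z : E) - 1) * gal g := by rw [hv, one_mul]
      have k1 : u' * (u - (z : E)) = 1 - (z : E) * u' := by
        rw [mul_sub, hu'u, (Nat.commute_cast u' z).eq]
      rw [e1, k1]
      nth_rewrite 1 [hv']
      have hz1 : (z : E) = z • (1 : E) := (nsmul_one z).symm
      have he1 : (e' : E) = e' • (1 : E) := (nsmul_one e').symm
      have hv1 : (v : E) = v • (1 : E) := (nsmul_one v).symm
      rw [hz1, he1, hv1]
      simp only [mul_add, sub_mul, mul_sub, smul_mul_assoc,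
        mul_smul_comm, one_mul, mul_one]
      module
    rw [e2]
    refine T2InN.add (T2InN.neg ((Na.mul_right (cPg g)).mul_left (cHn v))) ?_
    exact (((Na.mul_left (cHg σ1⁻¹)).mul_left (cHg g⁻¹)).mul_left (cHn e')).mul_left (cHn v)
  -- (c)
  have Nmul : ∀ (g g' : G) (a b : R), T2InN H P (gal g - evM a) → T2InN H P (gal g' - evM b) →
      T2InN H P (gal (g * g') - evM (a * b)) := by
    intro g g' a b ha hb
    have e1 : gal (g * g') - evM (a * b) = gal g * (gal g' - evM b) + (gal g - evM a) * evM b := by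
      rw [map_mul, map_mul]
      noncomm_ring
    rw [e1]
    exact (hb.mul_left (cHg g)).add (ha.mul_right (cPe b))
  have N1 : T2InN H P (gal (g1 * g2 * g3) - gal (g2 * g1 * g3)) := by
    have a1 := Nmul _ _ _ _ (Nmul _ _ _ _ (Nb g1) (Nb g2)) (Nb g3)
    have a2 := Nmul _ _ _ _ (Nmul _ _ _ _ (Nb g2) (Nb g1)) (Nb g3)
    rw [mul_comm (c g2) (c g1)] at a2
    have := a1.sub a2
    rwa [sub_sub_sub_cancel_right] at this
  have N2 : T2InN H P (gal (g1 * g2 * g3)⁻¹ - gal (g2 * g1 * g3)⁻¹) := by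
    have a1 := Nmul _ _ _ _ (Nb g3⁻¹) (Nmul _ _ _ _ (Nb g2⁻¹) (Nb g1⁻¹))
    have a2 := Nmul _ _ _ _ (Nb g3⁻¹) (Nmul _ _ _ _ (Nb g1⁻¹) (Nb g2⁻¹))
    rw [mul_comm (c g1⁻¹) (c g2⁻¹)] at a2
    have := a1.sub a2
    rw [sub_sub_sub_cancel_right] at this
    rwa [mul_inv_rev, mul_inv_rev, mul_inv_rev, mul_inv_rev]
  obtain ⟨d1, hd1⟩ := χ_nat g1
  obtain ⟨d2, hd2⟩ := χ_nat g2
  obtain ⟨d3, hd3⟩ := χ_nat g3
  have N3 : T2InN H P (evM (F (g1 * g2 * g3) - F (g2 * g1 * g3))) := by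
    have e1 : evM (F (g1 * g2 * g3) - F (g2 * g1 * g3)) =
        (gal (g1 * g2 * g3) - gal (g2 * g1 * g3)) +
          ((d1 * d2 * d3 : ℕ) : E) * (gal (g1 * g2 * g3)⁻¹ - gal (g2 * g1 * g3)⁻¹) := by
      have x1 : χ (g1 * g2 * g3) = ((d1 * d2 * d3 : ℕ) : E) := by
        rw [map_mul, map_mul, hd1, hd2, hd3]
        push_cast
        rfl
      have x2 : χ (g2 * g1 * g3) = ((d1 * d2 * d3 : ℕ) : E) := by
        rw [map_mul, map_mul, hd1, hd2, hd3, mul_comm d1 d2]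
        push_cast
        rfl
      rw [map_sub, hF, hF, x1, x2]
      noncomm_ring
    rw [e1]
    exact N1.add (N2.mul_left (cHn _))
  rw [map_mul, map_mul]
  exact N3

end abstract

variable {T : Type} [CommRing T] [IsLocalRing T] {ρ : GaloisRepAdic T} {p : ℕ}
  {P : ValuationSubring Qb} {σ0 : GQ} {k : ℕ}

theorem T2 (D : Data ρ p P σ0 k) (hk : 1 ≤ k) (P₀ : D.R) (hP₀ : IsUnit (D.evT P₀)) (σ1 : GQ)
    (z : ℕ) (hz : D.χ σ1 = (z : AddMonoid.End D.M))
    (hv : ∃ v : ℕ, (v : AddMonoid.End D.M) * ((z : AddMonoid.End D.M) - 1) = 1) (s : GQ)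
    (h1 : (D.gal σ1 - (z : AddMonoid.End D.M)) * (D.gal s - 1) * D.evM P₀ = 0)
    (h3 : (D.gal σ1 - (z : AddMonoid.End D.M)) * (D.gal σ1 - 1) * D.evM P₀ = 0)
    (g1 g2 g3 : GQ)
    (hunit : IsUnit (LinearMap.trace T ρ.V ((ρ.ρ g1 * ρ.ρ g2 - ρ.ρ g2 * ρ.ρ g1) * ρ.ρ g3))) :
    LinearMap.trace T ρ.V ((ρ.ρ σ1 - (z : Module.End T ρ.V)) * (ρ.ρ s - 1)) ∈
      maximalIdeal T ^ k := by
  obtain ⟨v, hv⟩ := hv
  choose F hFM hFT using D.tr
  have hkill := T2_kill D.gal D.evM D.χ D.comm D.χ_nat F hFM P₀ σ1 z hz v hv s h1 h3 g1 g2 g3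
  have hmem := D.faith _ hkill
  set h : D.R := F (σ1 * s) - F σ1 - (z : D.R) * F s + (z : D.R) * F 1 with hh
  set P₁ : D.R := F (g1 * g2 * g3) - F (g2 * g1 * g3) with hP₁
  have hle : maximalIdeal T ^ k ≤ maximalIdeal T := Ideal.pow_le_self (by omega)
  -- `evT P₁` is a unit
  have hP₁u : IsUnit (D.evT P₁) := by
    by_contra hcon
    have hm : D.evT P₁ ∈ maximalIdeal T := (IsLocalRing.mem_maximalIdeal _).2 hcon
    have e1 : LinearMap.trace T ρ.V ((ρ.ρ g1 * ρ.ρ g2 - ρ.ρ g2 * ρ.ρ g1) * ρ.ρ g3) =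
        (LinearMap.trace T ρ.V (ρ.ρ (g1 * g2 * g3)) - D.evT (F (g1 * g2 * g3))) -
        (LinearMap.trace T ρ.V (ρ.ρ (g2 * g1 * g3)) - D.evT (F (g2 * g1 * g3))) + D.evT P₁ := by
      rw [hP₁, map_sub D.evT, map_mul ρ.ρ, map_mul ρ.ρ, map_mul ρ.ρ, map_mul ρ.ρ, sub_mul,
        map_sub]
      ring
    have hm2 : LinearMap.trace T ρ.V ((ρ.ρ g1 * ρ.ρ g2 - ρ.ρ g2 * ρ.ρ g1) * ρ.ρ g3) ∈
        maximalIdeal T := by
      rw [e1]
      exact Ideal.add_mem _ (Ideal.sub_mem _ (hle (hFT _)) (hle (hFT _))) hm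
    exact (IsLocalRing.mem_maximalIdeal _).1 hm2 hunit
  have hhmem : D.evT h ∈ maximalIdeal T ^ k := by
    rw [map_mul, map_mul] at hmem
    exact (Ideal.mul_unit_mem_iff_mem _ hP₁u).1 ((Ideal.mul_unit_mem_iff_mem _ hP₀).1 hmem)
  have e2 : LinearMap.trace T ρ.V ((ρ.ρ σ1 - (z : Module.End T ρ.V)) * (ρ.ρ s - 1)) =
      (LinearMap.trace T ρ.V (ρ.ρ (σ1 * s)) - D.evT (F (σ1 * s))) -
      (LinearMap.trace T ρ.V (ρ.ρ σ1) - D.evT (F σ1)) -
      (z : T) * (LinearMap.trace T ρ.V (ρ.ρ s) - D.evT (F s)) +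
      (z : T) * (LinearMap.trace T ρ.V (ρ.ρ 1) - D.evT (F 1)) + D.evT h := by
    have e3 : (ρ.ρ σ1 - (z : Module.End T ρ.V)) * (ρ.ρ s - 1) =
        ρ.ρ (σ1 * s) - ρ.ρ σ1 - z • ρ.ρ s + z • ρ.ρ 1 := by
      rw [map_mul, map_one, nsmul_eq_mul, nsmul_eq_mul]
      noncomm_ring
    rw [e3, map_add, map_sub, map_sub, map_nsmul, map_nsmul, hh, map_add D.evT, map_sub D.evT,
      map_sub D.evT, map_mul D.evT, map_mul D.evT, map_natCast, nsmul_eq_mul, nsmul_eq_mul]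
    ring
  rw [e2]
  refine Ideal.add_mem _ (Ideal.add_mem _ (Ideal.sub_mem _ (Ideal.sub_mem _ (hFT _) (hFT _))
    (Ideal.mul_mem_left _ _ (hFT _))) (Ideal.mul_mem_left _ _ (hFT _))) hhmem

end Fermat.Agent.S33.Soft
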