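import Fermat.Agent.S33.Soft.Defs

/-!
# S33 / Soft-TraceZero : consequences of `S31.span_eq_top`

* `eq_zero_of_trace` : copy the proof of `S31.eq_one_of_trace`.
* `exists_comm_unit` : otherwise all `tr ([ρ g1, ρ g2] ρ g3) ∈ 𝔪`; by `span_eq_top` (bilinearity)
  `tr ([X, Y] Z) ∈ 𝔪` for all `X Y Z : End V`; take elementary matrices
  `X = E₀₁`, `Y = E₁₀`, `Z = E₀₀`: `[X, Y] = E₀₀ - E₁₁`, `tr = 1`.
-/

set_option autoImplicit false

namespace Fermat.Agent.S33.Soft

open IsLocalRing Fermat.Agent.S31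

variable {T : Type} [CommRing T] [IsLocalRing T]

theorem eq_zero_of_trace (ρ : GaloisRepAdic T) (habs : ρ.residual.IsAbsolutelyIrreducible)
    (X : Module.End T ρ.V) (h : ∀ g : GQ, LinearMap.trace T ρ.V (X * ρ.ρ g) = 0) : X = 0 := by
  let b : Module.Basis (Fin 2) T ρ.V := Module.finBasisOfFinrankEq T ρ.V ρ.finrank_eq
  have h1 : ∀ Y : Module.End T ρ.V, LinearMap.trace T ρ.V (Y * X) = 0 := by
    intro Y
    have hY : Y ∈ Submodule.span T (Set.range ρ.ρ) := by rw [span_eq_top ρ habs]; trivial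
    induction hY using Submodule.span_induction with
    | mem y hy =>
      obtain ⟨g, rfl⟩ := hy
      rw [LinearMap.trace_mul_comm, h]
    | zero => simp
    | add x y _ _ hx hy => rw [add_mul, map_add, hx, hy, add_zero]
    | smul c x _ hx => rw [smul_mul_assoc, map_smul, hx, smul_zero]
  have h2 : LinearMap.toMatrix b b X = 0 := by
    ext i j
    have h3 := h1 ((LinearMap.toMatrix b b).symm (Matrix.single j i 1))
    rw [LinearMap.trace_eq_matrix_trace T b, Module.End.mul_eq_comp, LinearMap.toMatrix_comp b b b,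
      LinearEquiv.apply_symm_apply] at h3
    rw [Matrix.trace_single_mul] at h3
    simpa using h3
  exact (LinearMap.toMatrix b b).injective (by rw [h2, map_zero])

theorem exists_comm_unit (ρ : GaloisRepAdic T) (habs : ρ.residual.IsAbsolutelyIrreducible) :
    ∃ g1 g2 g3 : GQ,
      IsUnit (LinearMap.trace T ρ.V ((ρ.ρ g1 * ρ.ρ g2 - ρ.ρ g2 * ρ.ρ g1) * ρ.ρ g3)) := by
  by_contra hcon
  push Not at hcon
  have h0 : ∀ g1 g2 g3 : GQ,
      LinearMap.trace T ρ.V ((ρ.ρ g1 * ρ.ρ g2 - ρ.ρ g2 * ρ.ρ g1) * ρ.ρ g3) ∈ maximalIdeal T :=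
    fun g1 g2 g3 => (mem_maximalIdeal _).mpr (hcon g1 g2 g3)
  have hmem : ∀ Y : Module.End T ρ.V, Y ∈ Submodule.span T (Set.range ρ.ρ) := by
    intro Y; rw [span_eq_top ρ habs]; trivial
  have h1 : ∀ (Z : Module.End T ρ.V) (g1 g2 : GQ),
      LinearMap.trace T ρ.V ((ρ.ρ g1 * ρ.ρ g2 - ρ.ρ g2 * ρ.ρ g1) * Z) ∈ maximalIdeal T := by
    intro Z g1 g2
    induction hmem Z using Submodule.span_induction with
    | mem y hy =>
      obtain ⟨g, rfl⟩ := hy
      exact h0 g1 g2 g
    | zero => simp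
    | add x y _ _ hx hy => rw [mul_add, map_add]; exact Ideal.add_mem _ hx hy
    | smul c x _ hx => rw [mul_smul_comm, map_smul]; exact Ideal.mul_mem_left _ c hx
  have h2 : ∀ (Y Z : Module.End T ρ.V) (g1 : GQ),
      LinearMap.trace T ρ.V ((ρ.ρ g1 * Y - Y * ρ.ρ g1) * Z) ∈ maximalIdeal T := by
    intro Y Z g1
    induction hmem Y using Submodule.span_induction with
    | mem y hy =>
      obtain ⟨g, rfl⟩ := hy
      exact h1 Z g1 g
    | zero => simp
    | add x y _ _ hx hy =>
      have : (ρ.ρ g1 * (x + y) - (x + y) * ρ.ρ g1) * Z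
          = (ρ.ρ g1 * x - x * ρ.ρ g1) * Z + (ρ.ρ g1 * y - y * ρ.ρ g1) * Z := by noncomm_ring
      rw [this, map_add]; exact Ideal.add_mem _ hx hy
    | smul c x _ hx =>
      have : (ρ.ρ g1 * (c • x) - (c • x) * ρ.ρ g1) * Z
          = c • ((ρ.ρ g1 * x - x * ρ.ρ g1) * Z) := by
        rw [mul_smul_comm, smul_mul_assoc, ← smul_sub, smul_mul_assoc]
      rw [this, map_smul]; exact Ideal.mul_mem_left _ c hx
  have h3 : ∀ (X Y Z : Module.End T ρ.V),
      LinearMap.trace T ρ.V ((X * Y - Y * X) * Z) ∈ maximalIdeal T := by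
    intro X Y Z
    induction hmem X using Submodule.span_induction with
    | mem y hy =>
      obtain ⟨g, rfl⟩ := hy
      exact h2 Y Z g
    | zero => simp
    | add x y _ _ hx hy =>
      have : ((x + y) * Y - Y * (x + y)) * Z
          = (x * Y - Y * x) * Z + (y * Y - Y * y) * Z := by noncomm_ring
      rw [this, map_add]; exact Ideal.add_mem _ hx hy
    | smul c x _ hx =>
      have : ((c • x) * Y - Y * (c • x)) * Z = c • ((x * Y - Y * x) * Z) := by
        rw [mul_smul_comm, smul_mul_assoc, ← smul_sub, smul_mul_assoc]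
      rw [this, map_smul]; exact Ideal.mul_mem_left _ c hx
  let b : Module.Basis (Fin 2) T ρ.V := Module.finBasisOfFinrankEq T ρ.V ρ.finrank_eq
  let e := LinearMap.toMatrixAlgEquiv b
  have h4 := h3 (e.symm (Matrix.single 0 1 1)) (e.symm (Matrix.single 1 0 1))
    (e.symm (Matrix.single 0 0 1))
  rw [← map_mul, ← map_mul, ← map_sub, ← map_mul, LinearMap.trace_eq_matrix_trace T b] at h4
  have h5 : LinearMap.toMatrix b b (e.symm ((Matrix.single 0 1 1 * Matrix.single 1 0 1
      - Matrix.single 1 0 1 * Matrix.single 0 1 1) * Matrix.single 0 0 (1 : T)))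
      = (Matrix.single 0 1 1 * Matrix.single 1 0 1
      - Matrix.single 1 0 1 * Matrix.single 0 1 1) * Matrix.single 0 0 (1 : T) :=
    e.apply_symm_apply _
  rw [h5] at h4
  have h6 : Matrix.trace ((Matrix.single 0 1 1 * Matrix.single 1 0 1
      - Matrix.single 1 0 1 * Matrix.single 0 1 1) * Matrix.single (0 : Fin 2) (0 : Fin 2) (1 : T))
      = 1 := by
    simp [Matrix.trace_fin_two, Matrix.mul_apply, Fin.sum_univ_two, Matrix.single_apply]
  rw [h6] at h4
  exact (Ideal.ne_top_iff_one _).mp (maximalIdeal.isMaximal T).ne_top h4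

end Fermat.Agent.S33.Soft
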