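import Fermat.Agent.S33.Soft.Dev
import Fermat.Agent.S33.Soft.T1
import Fermat.Agent.S33.Soft.T2
import Fermat.Agent.S33.Soft.Split
import Fermat.Agent.S33.Soft.SplitTr
import Fermat.Agent.S33.Soft.SplitEb
import Fermat.Agent.S33.Soft.TraceZero

/-!
# S33 / Soft-Core : the abstract core of SOFT
-/

set_option autoImplicit false

namespace Fermat.Agent.S33.Soft

open IsLocalRing Fermat.Agent.S31

/-- **SOFT, abstract core.** -/
theorem core {T : Type} [CommRing T] [IsLocalRing T] [IsAdicComplete (maximalIdeal T) T]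
    (ρ : GaloisRepAdic T) (hsep : ⨅ n : ℕ, maximalIdeal T ^ n = ⊥)
    (habs : ρ.residual.IsAbsolutelyIrreducible) {p : ℕ} (hp : p.Prime)
    (hpT : (p : T) ∈ maximalIdeal T) (P : ValuationSubring Qb) (σ0 : GQ)
    (hσ0 : σ0 ∈ P.inertiaSubgroupIn ℚ)
    (h1 : LinearMap.trace T ρ.V (ρ.ρ σ0) - 1 - LinearMap.det (ρ.ρ σ0) ∈ maximalIdeal T)
    (h2 : LinearMap.det (ρ.ρ σ0) - 1 ∉ maximalIdeal T)
    (hD : ∀ k : ℕ, Nonempty (Data ρ p P σ0 k)) :
    ∃ L : Submodule T ρ.V, (∃ b : Module.Basis (Fin 2) T ρ.V, L = T ∙ b 0) ∧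
      (∀ σ ∈ P.decompositionSubgroup ℚ, ∀ v ∈ L, ρ.ρ σ v ∈ L) ∧
      (∀ σ ∈ P.inertiaSubgroupIn ℚ, ∀ v : ρ.V, ρ.ρ σ v - v ∈ L) := by
  obtain ⟨a, b, ea, eb, hs⟩ := exists_isSplit ρ.finrank_eq (ρ.ρ σ0) h1 h2
  have mem_all : ∀ x : T, (∀ k : ℕ, x ∈ maximalIdeal T ^ (k + 1)) → x = 0 := by
    intro x hx
    rw [← Ideal.mem_bot, ← hsep, Ideal.mem_iInf]
    intro k
    exact Ideal.pow_le_pow_right (Nat.le_succ k) (hx k)
  have key1 : ∀ t ∈ P.decompositionSubgroup ℚ, eb * ρ.ρ t * ea = 0 := by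
    intro t ht
    apply eq_zero_of_trace ρ habs
    intro g
    apply mem_all
    intro k
    obtain ⟨D⟩ := hD (k + 1)
    obtain ⟨P₀, r₀, hP₀, hdev⟩ := dev D (Nat.succ_le_succ (Nat.zero_le k)) hpT hσ0 h1
    obtain ⟨hd1, -⟩ := hdev (max r₀ k) (le_max_left _ _)
    set r := max r₀ k with hr
    have hσ1 : σ0 ^ p ^ r ∈ P.inertiaSubgroupIn ℚ := Subgroup.pow_mem _ hσ0 _
    have hz : D.χ (σ0 ^ p ^ r) = ((D.a ^ p ^ r : ℕ) : AddMonoid.End D.M) := by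
      rw [map_pow, D.χ_σ0, Nat.cast_pow]
    have hT1 := T1 D P₀ hP₀ (σ0 ^ p ^ r) (D.a ^ p ^ r) hz t g (hd1 t ht)
      (hd1 _ (mul_mem (inv_mem ht) (inv_mem (inertia_le_decomposition P hσ1))))
    rw [map_pow] at hT1
    have hS := hs.trace_T1 p hp.ne_zero hpT D.a D.a_det r (k + 1)
      (Nat.succ_le_succ (le_max_right _ _)) (ρ.ρ t) (ρ.ρ g)
    have hu := one_sub_pow_unit hp hpT D.a _ D.a_det h2 r
    have h3 := Ideal.sub_mem _ hS hT1
    rw [add_sub_cancel_left] at h3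
    exact (Ideal.unit_mul_mem_iff_mem _ (hu.pow 2)).mp h3
  obtain ⟨g1, g2, g3, hunit⟩ := exists_comm_unit ρ habs
  have key2 : ∀ s ∈ P.inertiaSubgroupIn ℚ, eb * (ρ.ρ s - 1) = 0 := by
    intro s hs'
    have htr : LinearMap.trace T ρ.V (eb * (ρ.ρ s - 1)) = 0 := by
      apply mem_all
      intro k
      obtain ⟨D⟩ := hD (k + 1)
      have hk : 1 ≤ k + 1 := Nat.succ_le_succ (Nat.zero_le k)
      obtain ⟨P₀, r₀, hP₀, hdev⟩ := dev D hk hpT hσ0 h1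
      obtain ⟨hd1, hd2⟩ := hdev (max r₀ k) (le_max_left _ _)
      set r := max r₀ k with hr
      have hz : D.χ (σ0 ^ p ^ r) = ((D.a ^ p ^ r : ℕ) : AddMonoid.End D.M) := by
        rw [map_pow, D.χ_σ0, Nat.cast_pow]
      have hu := one_sub_pow_unit hp hpT D.a _ D.a_det h2 r
      have hv := exists_inv_end hp hpT D.n D.kill (D.a ^ p ^ r) hu
      have h3 := hd1 1 (one_mem _)
      rw [map_one, mul_one] at h3
      have hT2 := T2 D hk P₀ hP₀ (σ0 ^ p ^ r) (D.a ^ p ^ r) hz hv s (hd2 s hs') h3 g1 g2 g3 hunit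
      rw [map_pow] at hT2
      have hS := hs.trace_T2 p hp.ne_zero hpT D.a D.a_det r (k + 1)
        (Nat.succ_le_succ (le_max_right _ _)) (ρ.ρ s - 1)
      have h4 := Ideal.sub_mem _ hT2 hS
      rw [sub_sub_cancel] at h4
      exact (Ideal.unit_mul_mem_iff_mem _ hu).mp h4
    have h5 : eb * (ρ.ρ s - 1) = eb * (ρ.ρ s - 1) * eb := by
      have h6 : eb * (ρ.ρ s - 1) * (ea + eb)
          = eb * ρ.ρ s * ea - eb * ea + eb * (ρ.ρ s - 1) * eb := by noncomm_ring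
      rw [hs.add, mul_one, key1 s (inertia_le_decomposition P hs'), hs.mul', sub_zero,
        zero_add] at h6
      exact h6
    rw [h5, hs.eb_mul_eb, htr, zero_smul]
  obtain ⟨L, hL, hLb, hLa⟩ := hs.line
  refine ⟨L, hL, ?_, ?_⟩
  · intro σ hσ v hv
    rw [hLb]
    have h7 : ea v = v := (hLa v).mp hv
    rw [← h7]
    exact LinearMap.congr_fun (key1 σ hσ) v
  · intro σ hσ v
    rw [hLb]
    exact LinearMap.congr_fun (key2 σ hσ) v

end Fermat.Agent.S33.Soft
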