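import Fermat.Agent.S31.Transfer
import Fermat.Agent.S31.Span

/-!
# S33 / Soft : definitions of the abstract core  (blueprint: board topic `S33`, #1305 and the
`Soft skeleton` post)

`Data ρ p P σ0 k` : a finite Galois module `M` killed by `p ^ n`, with a commutative ring `R` of
"Hecke polynomials" acting on `M` (`evM`) and mapping to `T` (`evT`), such that

* `tr`    : every `g + χ(g) g⁻¹` is a Hecke operator `F_g`, with `evT F_g ≡ tr ρ(g) mod 𝔪 ^ k`;
* `faith` : a Hecke polynomial killing `M` is `≡ 0 mod 𝔪 ^ k` in `T`;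
* `ord`   : no nonzero element of `(I_P - 1) M` killed by `p` is fixed by `σ0`.

`IsSplit f a b ea eb` : `f = a ea + b eb` with complementary rank one idempotents.
-/

set_option autoImplicit false

namespace Fermat.Agent.S33.Soft

open IsLocalRing Fermat.Agent.S31

/-- the subgroup `(I_P - 1) M`. -/
def aug {M : Type} [AddCommGroup M] (gal : GQ →* AddMonoid.End M) (P : ValuationSubring Qb) :
    AddSubgroup M :=
  AddSubgroup.closure {y : M | ∃ s ∈ P.inertiaSubgroupIn ℚ, ∃ x : M, y = gal s x - x}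

/-- The finite level data (precision `k`). -/
structure Data {T : Type} [CommRing T] [IsLocalRing T] (ρ : GaloisRepAdic T) (p : ℕ)
    (P : ValuationSubring Qb) (σ0 : GQ) (k : ℕ) where
  M : Type
  [instM : AddCommGroup M]
  [finM : Finite M]
  R : Type
  [instR : CommRing R]
  n : ℕ
  gal : GQ →* AddMonoid.End M
  evM : R →+* AddMonoid.End M
  evT : R →+* T
  χ : GQ →* AddMonoid.End M
  a : ℕ
  kill : ∀ x : M, p ^ n • x = 0
  comm : ∀ (F : R) (g : GQ), Commute (evM F) (gal g)
  χ_nat : ∀ g : GQ, ∃ e : ℕ, χ g = (e : AddMonoid.End M)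
  χ_σ0 : χ σ0 = (a : AddMonoid.End M)
  a_det : LinearMap.det (ρ.ρ σ0) - (a : T) ∈ maximalIdeal T
  tr : ∀ g : GQ, ∃ F : R, evM F = gal g + χ g * gal g⁻¹ ∧
    LinearMap.trace T ρ.V (ρ.ρ g) - evT F ∈ maximalIdeal T ^ k
  faith : ∀ F : R, evM F = 0 → evT F ∈ maximalIdeal T ^ k
  ord : ∀ x ∈ aug gal P, p • x = 0 → gal σ0 x = x → x = 0

attribute [instance] Data.instM Data.finM Data.instR

/-- `f = a ea + b eb`, `ea`, `eb` complementary idempotents of rank one, `b ≡ 1`. -/
structure IsSplit {T : Type} [CommRing T] [IsLocalRing T] {V : Type} [AddCommGroup V] [Module T V]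
    (f : Module.End T V) (a b : T) (ea eb : Module.End T V) : Prop where
  hb : b - 1 ∈ maximalIdeal T
  ha : a - LinearMap.det f ∈ maximalIdeal T
  add : ea + eb = 1
  mul : ea * eb = 0
  mul' : eb * ea = 0
  eq : f = a • ea + b • eb
  basis : ∃ v : Module.Basis (Fin 2) T V, ea (v 0) = v 0 ∧ ea (v 1) = 0 ∧ eb (v 0) = 0 ∧
    eb (v 1) = v 1

end Fermat.Agent.S33.Soft
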