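import Mathlib

/-!
# S33 / Soft-P0 : localisation at the maximal ideal by one Hecke operator

PROOF SKETCH.  `Rbar := R ⧸ ker evM` is a finite commutative ring (it embeds in `E`).  Let `Ibar` be
the image of `I := comap evT 𝔪`.  The chain `Ibar ^ i` stabilises: `J := Ibar ^ i = Ibar ^ (i+1) = …`,
so `J * J = J`, `J` is finitely generated, hence `J = (e)` with `e` idempotent
(`Ideal.isIdempotentElem_iff_of_fg`).  Let `P₀` be a lift of `1 - e`.  Then `I ^ i * P₀` acts by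
`J (1 - e) = 0`.  If `evT P₀` were in `𝔪`: (`i ≥ 1` wlog, so `e ∈ Ibar`) let `E₀ ∈ I` be a lift of `e`;
`P₀ + E₀ - 1` kills everything, so `evT (P₀ + E₀) - 1 ∈ 𝔪` by `faith`, while `evT (P₀ + E₀) ∈ 𝔪`:
contradiction.
-/

set_option autoImplicit false

namespace Fermat.Agent.S33.Soft

open IsLocalRing

theorem exists_P0 {R T E : Type} [CommRing R] [CommRing T] [IsLocalRing T] [Ring E] [Finite E]
    (evM : R →+* E) (evT : R →+* T) (faith : ∀ F : R, evM F = 0 → evT F ∈ maximalIdeal T) :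
    ∃ (P₀ : R) (i : ℕ), IsUnit (evT P₀) ∧
      ∀ F ∈ (Ideal.comap evT (maximalIdeal T)) ^ i, evM (F * P₀) = 0 := by
  classical
  obtain ⟨K, hK⟩ : ∃ K : Ideal R, K = RingHom.ker evM := ⟨_, rfl⟩
  have hfin : Finite (R ⧸ K) := by
    rw [hK]
    exact Finite.of_injective _ (RingHom.kerLift_injective evM)
  obtain ⟨I, hI⟩ : ∃ I : Ideal R, I = Ideal.comap evT (maximalIdeal T) := ⟨_, rfl⟩
  rw [← hI]
  obtain ⟨Ib, hIb⟩ : ∃ Ib : Ideal (R ⧸ K), Ib = I.map (Ideal.Quotient.mk K) := ⟨_, rfl⟩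
  -- the chain of powers stabilises
  obtain ⟨n, hn⟩ : ∃ n, ∀ m, n ≤ m → Ib ^ n = Ib ^ m :=
    IsArtinian.monotone_stabilizes (R := R ⧸ K) (M := R ⧸ K)
      ⟨fun i => OrderDual.toDual (Ib ^ i), fun a b hab => Ideal.pow_le_pow_right hab⟩
  have hJJ : IsIdempotentElem (Ib ^ (n + 1)) := by
    change Ib ^ (n + 1) * Ib ^ (n + 1) = Ib ^ (n + 1)
    rw [← pow_add, ← hn (n + 1) (by omega), ← hn (n + 1 + (n + 1)) (by omega)]
  obtain ⟨e, he, hJe⟩ :=
    (Ideal.isIdempotentElem_iff_of_fg _ (IsNoetherian.noetherian _)).1 hJJ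
  have heJ : e ∈ Ib ^ (n + 1) := by
    rw [hJe]
    exact Submodule.mem_span_singleton_self e
  have heI : e ∈ Ib := Ideal.pow_le_self (by omega) heJ
  rw [hIb] at heI
  obtain ⟨E₀, hE₀, hE₀e⟩ :=
    (Ideal.mem_map_iff_of_surjective _ Ideal.Quotient.mk_surjective).1 heI
  refine ⟨1 - E₀, n + 1, ?_, ?_⟩
  · rw [map_sub, map_one]
    have h1 : evT E₀ ∈ maximalIdeal T := by
      rw [hI] at hE₀
      exact hE₀
    by_contra hnu
    have h2 : 1 - evT E₀ ∈ maximalIdeal T := (mem_maximalIdeal _).2 hnu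
    have h3 : (1 : T) ∈ maximalIdeal T := by simpa using (maximalIdeal T).add_mem h2 h1
    exact (Ideal.ne_top_iff_one _).1 (maximalIdeal.isMaximal T).ne_top h3
  · intro F hF
    have h1 : Ideal.Quotient.mk K F ∈ Ib ^ (n + 1) := by
      rw [hIb, ← Ideal.map_pow]
      exact Ideal.mem_map_of_mem _ hF
    rw [hJe] at h1
    obtain ⟨c, hc⟩ := Submodule.mem_span_singleton.1 h1
    have h2 : Ideal.Quotient.mk K (F * (1 - E₀)) = 0 := by
      rw [map_mul, map_sub, map_one, hE₀e, ← hc, smul_eq_mul, mul_assoc, mul_sub, mul_one, he.eq,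
        sub_self, mul_zero]
    have h3 := Ideal.Quotient.eq_zero_iff_mem.1 h2
    rw [hK] at h3
    exact (RingHom.mem_ker).1 h3

end Fermat.Agent.S33.Soft
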