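import Fermat.Agent.S33.Soft.ClaimAB
import Fermat.Agent.S33.Soft.P0
import Fermat.Agent.S33.Soft.PowP

/-!
# S33 / Soft-Dev : the dévissage

`exists_P0` (with `E := AddMonoid.End D.M`, finite; `faith` from `D.faith` and `𝔪 ^ k ≤ 𝔪`) gives
`P₀`, `i`.  Put `r₀ := D.n + i`.  Let `r ≥ r₀`, `σ1 := σ0 ^ p ^ r ∈ I_P`, `z := a ^ p ^ r`.

For `x : M` and `s ∈ I_P`, `t ∈ D_P`: `y := t ((s - 1) (P₀ x)) = t (P₀ ((s - 1) x))` lies in `aug`
(`sub_mem_aug`, `aug_comm_mem`, `aug_gal_mem`) and is killed by `I ^ i` (commutation, `exists_P0`);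
so `(σ0 - a) ^ i y = 0` (`claimAB`) and `σ1 y = z y` (`pow_apply_eq`, `D.kill`, `map_pow`).
First statement: `s := σ1`.  Second statement: `t := 1`.
-/

set_option autoImplicit false

namespace Fermat.Agent.S33.Soft

open IsLocalRing Fermat.Agent.S31

variable {T : Type} [CommRing T] [IsLocalRing T] {ρ : GaloisRepAdic T} {p : ℕ}
  {P : ValuationSubring Qb} {σ0 : GQ} {k : ℕ}

theorem dev (D : Data ρ p P σ0 k) (hk : 1 ≤ k) (hpT : (p : T) ∈ maximalIdeal T)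
    (hσ0 : σ0 ∈ P.inertiaSubgroupIn ℚ)
    (h1 : LinearMap.trace T ρ.V (ρ.ρ σ0) - 1 - LinearMap.det (ρ.ρ σ0) ∈ maximalIdeal T) :
    ∃ (P₀ : D.R) (r₀ : ℕ), IsUnit (D.evT P₀) ∧ ∀ r : ℕ, r₀ ≤ r →
      (∀ t ∈ P.decompositionSubgroup ℚ,
        (D.gal (σ0 ^ p ^ r) - ((D.a ^ p ^ r : ℕ) : AddMonoid.End D.M)) * D.gal t *
          (D.gal (σ0 ^ p ^ r) - 1) * D.evM P₀ = 0) ∧
      (∀ s ∈ P.inertiaSubgroupIn ℚ,
        (D.gal (σ0 ^ p ^ r) - ((D.a ^ p ^ r : ℕ) : AddMonoid.End D.M)) * (D.gal s - 1) *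
          D.evM P₀ = 0) := by
  have hfin : Finite (AddMonoid.End D.M) :=
    Finite.of_injective (fun f : AddMonoid.End D.M => (f : D.M → D.M)) DFunLike.coe_injective
  have faith' : ∀ F : D.R, D.evM F = 0 → D.evT F ∈ maximalIdeal T :=
    fun F h => Ideal.pow_le_self (by omega) (D.faith F h)
  obtain ⟨P₀, i, hunit, hkill⟩ := exists_P0 D.evM D.evT faith'
  have key : ∀ r, D.n + i ≤ r → ∀ s ∈ P.inertiaSubgroupIn ℚ, ∀ t ∈ P.decompositionSubgroup ℚ,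
      (D.gal (σ0 ^ p ^ r) - ((D.a ^ p ^ r : ℕ) : AddMonoid.End D.M)) * D.gal t *
        (D.gal s - 1) * D.evM P₀ = 0 := by
    intro r hr s hs t ht
    apply AddMonoidHom.ext
    intro x
    obtain ⟨y, hy⟩ : ∃ y, y = D.gal t (D.gal s (D.evM P₀ x) - D.evM P₀ x) := ⟨_, rfl⟩
    have hyaug : y ∈ aug D.gal P := hy ▸ aug_gal_mem D.gal P ht (sub_mem_aug D.gal P hs _)
    have hyI : ∀ F ∈ (Ideal.comap D.evT (maximalIdeal T)) ^ i, D.evM F y = 0 := by
      intro F hF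
      have h0 : D.evM F (D.evM P₀ x) = 0 := by
        have := hkill F hF
        rw [map_mul] at this
        exact DFunLike.congr_fun this x
      have c1 : ∀ (g : GQ) (w : D.M), D.evM F (D.gal g w) = D.gal g (D.evM F w) :=
        fun g w => DFunLike.congr_fun (D.comm F g).eq w
      rw [hy, c1, map_sub, c1, h0, map_zero, sub_zero, map_zero]
    have hnil := claimAB D hk hpT hσ0 h1 i y hyaug hyI
    have hpow := pow_apply_eq (D.gal σ0) D.a p D.n i r (by omega) y (D.kill y) hnil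
    change D.gal (σ0 ^ p ^ r) (D.gal t (D.gal s (D.evM P₀ x) - D.evM P₀ x)) -
      ((D.a ^ p ^ r : ℕ) : AddMonoid.End D.M) (D.gal t (D.gal s (D.evM P₀ x) - D.evM P₀ x)) = 0
    rw [← hy, map_pow, hpow, AddMonoid.End.natCast_apply, sub_self]
  refine ⟨P₀, D.n + i, hunit, fun r hr => ⟨fun t ht => ?_, fun s hs => ?_⟩⟩
  · exact key r hr _ (Subgroup.pow_mem _ hσ0 _) t ht
  · have := key r hr s hs 1 (Subgroup.one_mem _)
    rwa [map_one, mul_one] at this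

end Fermat.Agent.S33.Soft
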