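import Fermat.Agent.S31.Core

/-!
# S33 / Soft-KChi : the cyclotomic character with values in `End X`, `p ^ n X = 0`

Fix a primitive `p ^ n`-th root of unity `ζ₀` (`HasEnoughRootsOfUnity.exists_primitiveRoot`); for every
`g` choose `e g : ℕ` with `g ζ₀ = ζ₀ ^ e g` (`IsPrimitiveRoot.eq_pow_of_pow_eq_one`); `χ g := (e g : End X)`.
Multiplicativity and independence of the choices: `S31.modEq_of_pow_eq`,
`S31.natCast_end_eq_of_modEq`.  (Any primitive `ζ` is a power of `ζ₀`, so `g ζ = ζ ^ e g` too.)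
-/

set_option autoImplicit false

namespace Fermat.Agent.S33.Soft

open Fermat.Agent.S31

theorem exists_chi {p n : ℕ} (hp : p.Prime) {X : Type} [AddCommGroup X]
    (kill : ∀ x : X, p ^ n • x = 0) :
    ∃ χ : GQ →* AddMonoid.End X, (∀ g : GQ, ∃ e : ℕ, χ g = (e : AddMonoid.End X)) ∧
      ∀ (g : GQ) (e : ℕ) (ζ : Qb), IsPrimitiveRoot ζ (p ^ n) → g ζ = ζ ^ e →
        χ g = (e : AddMonoid.End X) := by
  classical
  have hm : p ^ n ≠ 0 := pow_ne_zero _ hp.ne_zero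
  haveI : NeZero (p ^ n) := ⟨hm⟩
  haveI : NeZero ((p ^ n : ℕ) : Qb) := ⟨by exact_mod_cast hm⟩
  obtain ⟨ζ₀, hζ₀⟩ : ∃ ζ₀ : Qb, IsPrimitiveRoot ζ₀ (p ^ n) :=
    HasEnoughRootsOfUnity.exists_primitiveRoot Qb (p ^ n)
  have hex : ∀ g : GQ, ∃ e : ℕ, g ζ₀ = ζ₀ ^ e := by
    intro g
    have h1 : (g ζ₀) ^ (p ^ n) = 1 := by rw [← map_pow, hζ₀.pow_eq_one, map_one]
    obtain ⟨i, -, hi⟩ := hζ₀.eq_pow_of_pow_eq_one h1
    exact ⟨i, hi.symm⟩
  choose e he using hex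
  -- independence of the choices
  have huniq : ∀ (g : GQ) (a : ℕ), g ζ₀ = ζ₀ ^ a →
      ((e g : ℕ) : AddMonoid.End X) = (a : AddMonoid.End X) := by
    intro g a ha
    exact natCast_end_eq_of_modEq kill (modEq_of_pow_eq hm hζ₀ (by rw [← he g, ha]))
  refine ⟨{ toFun := fun g => ((e g : ℕ) : AddMonoid.End X), map_one' := ?_, map_mul' := ?_ },
    fun g => ⟨e g, rfl⟩, ?_⟩
  · rw [huniq 1 1 (by simp), Nat.cast_one]
  · intro g h
    rw [huniq (g * h) (e g * e h) ?_, Nat.cast_mul]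
    rw [AlgEquiv.mul_apply, he h, map_pow, he g, ← pow_mul]
  · intro g a ζ hζ hga
    show ((e g : ℕ) : AddMonoid.End X) = (a : AddMonoid.End X)
    obtain ⟨i, -, hi⟩ := hζ₀.eq_pow_of_pow_eq_one hζ.pow_eq_one
    have h2 : g ζ = ζ ^ e g := by
      rw [← hi, map_pow, he g, ← pow_mul, ← pow_mul, mul_comm]
    exact natCast_end_eq_of_modEq kill (modEq_of_pow_eq hm hζ (by rw [← h2, hga]))

end Fermat.Agent.S33.Soft
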