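import Fermat.Agent.S33.Soft.KSetup
import Fermat.Agent.SS.Formal.Core34

/-!
# S33 / Soft-KConn : `(I_P - 1) Kum ⊆` classes with trivial reduction on both components

* `InK1.zero/add/neg` : `RedConst` is multiplicative (multiply / swap numerators and denominators;
  or go through `RedTo` : `RedConst A u ↔ ∃ c ≠ 0, RedTo A (cst c * u) 1`, `redConst_of_redTo`,
  `RedTo.mul`, `RedTo.inv`).
* `inK1_gal_sub` : `SS.redConst_gal_div`, `ES.res_galA_of_inertia` (see the end of the proof of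
  `SS.core34`).
* `aug_le_conn` : `AddSubgroup.closure_induction`; `SS.galKum_wKum` for the second component.
-/

set_option autoImplicit false

namespace Fermat.Agent.S33.Soft

open Fermat.Agent.ES Fermat.Agent.SS

variable {N m : ℕ} {A : ValuationSubring Qb}

/-- helper: `RedConst` for `1`. -/
theorem KConn_redConst_one : RedConst A (1 : FF N) := by
  refine ⟨1, 1, 1, one_ne_zero, ?_, ?_, rfl, ?_, ?_⟩
  · rw [map_one]; exact one_mem _
  · rw [map_one]; exact one_mem _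
  · rw [map_one]; exact one_ne_zero
  · simp

/-- helper: `RedConst` is multiplicative. -/
theorem KConn_redConst_mul {u u' : FF N} (h : RedConst A u) (h' : RedConst A u') :
    RedConst A (u * u') := by
  obtain ⟨c, y₁, y₂, hc, h1, h2, h3, h4, h5⟩ := h
  obtain ⟨c', z₁, z₂, hc', k1, k2, k3, k4, k5⟩ := h'
  refine ⟨c * c', y₁ * z₁, y₂ * z₂, mul_ne_zero hc hc', ?_, ?_, ?_, ?_, ?_⟩
  · rw [map_mul]; exact mul_mem h1 k1
  · rw [map_mul]; exact mul_mem h2 k2
  · rw [map_mul, map_mul, h3, k3]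
  · rw [map_mul]; exact mul_ne_zero h4 k4
  · rw [map_mul, map_mul, map_mul, ← h5, ← k5]
    push_cast
    ring

/-- helper: `RedConst` is stable under inverses. -/
theorem KConn_redConst_inv {u : FF N} (hu : u ≠ 0) (h : RedConst A u) : RedConst A u⁻¹ := by
  obtain ⟨c, y₁, y₂, hc, h1, h2, h3, h4, h5⟩ := h
  have hu' : (u : LaurentSeries Qb) ≠ 0 := fun h0 => hu (Subtype.ext h0)
  have hcc : algebraMap Qb (LaurentSeries Qb) c ≠ 0 := by
    rw [Ne, map_eq_zero]; exact hc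
  refine ⟨c⁻¹, y₂, y₁, inv_ne_zero hc, h2, h1, h3.symm, by rw [h3]; exact h4, ?_⟩
  rw [← h5, map_inv₀]
  push_cast
  field_simp

theorem InK1.zero : InK1 A (0 : Kum N m) :=
  ⟨1, Kum.mk_one, KConn_redConst_one⟩

theorem InK1.add {x y : Kum N m} (hx : InK1 A x) (hy : InK1 A y) : InK1 A (x + y) := by
  obtain ⟨u, rfl, hu⟩ := hx
  obtain ⟨u', rfl, hu'⟩ := hy
  exact ⟨u * u', Kum.mk_mul u u', KConn_redConst_mul hu hu'⟩

theorem InK1.neg {x : Kum N m} (hx : InK1 A x) : InK1 A (-x) := by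
  obtain ⟨u, rfl, hu⟩ := hx
  refine ⟨u⁻¹, Kum.mk_inv u, ?_⟩
  have h1 : (((u⁻¹ : Dm N m) : (FF N)ˣ) : FF N) = (((u : (FF N)ˣ) : FF N))⁻¹ := by
    simp
  rw [h1]
  exact KConn_redConst_inv (Units.ne_zero _) hu

theorem inK1_gal_sub [NeZero N] {s : GQ} (hs : s ∈ A.inertiaSubgroupIn ℚ) (x : Kum N m) :
    InK1 A (galKum N m s x - x) := by
  obtain ⟨f, rfl⟩ := Kum.mk_surjective x
  obtain ⟨g, rfl, hg⟩ := res_galA_of_inertia hs
  refine ⟨⟨galU N (g : GQ) f, galU_mem_Dm (g : GQ) f.2⟩ * f⁻¹, ?_, ?_⟩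
  · rw [Kum.mk_mul, Kum.mk_inv, galKum_mk, sub_eq_add_neg]
  · have h1 := redConst_gal_div A g hg (((f : (FF N)ˣ) : FF N)) (Units.ne_zero _)
    have h2 : ((((⟨galU N (g : GQ) f, galU_mem_Dm (g : GQ) f.2⟩ * f⁻¹ : Dm N m)) : (FF N)ˣ) : FF N)
        = galF N (g : GQ) ((f : (FF N)ˣ) : FF N) * (((f : (FF N)ˣ) : FF N))⁻¹ := by
      simp
    rw [h2]
    exact h1

theorem aug_le_conn {M p : ℕ} [NeZero M] [NeZero p] [NeZero (M * p)] (hp : p.Prime)
    {w : FF (M * p) →ₐ[Qb] FF (M * p)} (hw : IsAL M p w) (m : ℕ) (x : Kum (M * p) m)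
    (hx : x ∈ aug (S31.galEnd (M * p) m) A) : InK1 A x ∧ InK1 A (wKum hw hp m x) := by
  induction hx using AddSubgroup.closure_induction with
  | mem y hy =>
    obtain ⟨s, hs, x, rfl⟩ := hy
    refine ⟨inK1_gal_sub hs x, ?_⟩
    have h1 : wKum hw hp m (S31.galEnd (M * p) m s x - x)
        = galKum (M * p) m s (wKum hw hp m x) - wKum hw hp m x := by
      rw [map_sub, galKum_wKum]
      rfl
    rw [h1]
    exact inK1_gal_sub hs _
  | zero => exact ⟨InK1.zero, by rw [map_zero]; exact InK1.zero⟩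
  | add x y _ _ hx hy => exact ⟨InK1.add hx.1 hy.1, by rw [map_add]; exact InK1.add hx.2 hy.2⟩
  | neg x _ hx => exact ⟨InK1.neg hx.1, by rw [map_neg]; exact InK1.neg hx.2⟩

end Fermat.Agent.S33.Soft
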