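import Fermat.Agent.S33.Soft.KSetup
import Fermat.Agent.ES.B.Trans

/-!
# S33 / Soft-KOrd : `Ord` (exponent `p`) ⟹ the same for the `p`-torsion of `Kum (M p) (p ^ n)`

`n = 0`: `Kum _ 1 = 0` (`Kum.nsmul_eq_zero`).  `n = j + 1`, `K := p ^ j`:
(a) `x = mk f`, `p • x = 0`: `f ^ p = g ^ (p ^ n)`, so `(f / g ^ K) ^ p = 1`, `f = ζ g ^ K` with `ζ` a
    constant (`ζ ^ p = 1` in the field `FF`; the roots of `X ^ p - 1` are in `Qb`), `ζ = ζ' ^ (p ^ n)`;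
    replacing `g` : `x = mk (h ^ K)` for some `h`, and `h ∈ Dm _ p` (`K ord h ∈ p K ℤ`).
    So `x = j y`, `y := mk h : Kum (M p) p`  (`j = Kum.incl`, up to `p ^ (j+1) = p * p ^ j`; it may be easier
    to avoid `Kum.incl` and to argue with representatives).
(b) `j` is injective (`h ^ K = g ^ (p K)` ⟹ `h = ζ g ^ p`) and commutes with `galKum`, `wKum`:
    `galKum σ y = y`.
(c) `InK1 A (j y) → InK1 A y`: a representative `u = h ^ K g ^ (p K) = (h g ^ p) ^ K` is `RedConst`.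
    By `SS.exists_redTo`, `RedTo A (cst c * (h g ^ p)) r`, `r ≠ 0`; so `RedTo A (cst c ^ K * u) (r ^ K)`;
    comparing with `RedConst A u` (`RedTo.unique`, `RedTo.const`): `r ^ K` is a constant `cstk d`;
    `k_A` is algebraically closed (or: perfect), `d = d' ^ K`, `(r - cstk d') ^ K = 0`
    (`sub_pow_char_pow`, char `p`), `r = cstk d'` constant; `SS.redConst_of_redTo`.
(d) apply `hord` to `y`.
-/

set_option autoImplicit false

namespace Fermat.Agent.S33.Soft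

open Fermat.Agent.ES Fermat.Agent.SS

/-- roots: `a ^ s = (u ^ t) ^ s` implies that `a` is a `t`-th power (constants are `t`-th powers). -/
theorem KOrd_exists_root {N : ℕ} (a u : (FF N)ˣ) (s t : ℕ) (hs : s ≠ 0) (ht : t ≠ 0)
    (h : a ^ s = (u ^ t) ^ s) : ∃ v : (FF N)ˣ, v ^ t = a := by
  obtain ⟨ζ, hζ⟩ : ∃ ζ : (FF N)ˣ, ζ = a * (u ^ t)⁻¹ := ⟨_, rfl⟩
  have hζs : ζ ^ s = 1 := by
    rw [hζ, mul_pow, inv_pow, h, mul_inv_cancel]
  have hint : IsIntegral Qb (ζ : FF N) := by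
    apply IsIntegral.of_pow (Nat.pos_of_ne_zero hs)
    rw [← Units.val_pow_eq_pow_val, hζs, Units.val_one]
    exact isIntegral_one
  obtain ⟨c, hc⟩ := minpoly.mem_range_of_degree_eq_one Qb (ζ : FF N)
    (IsAlgClosed.degree_eq_one_of_irreducible Qb (minpoly.irreducible hint))
  obtain ⟨c₁, hc₁⟩ := IsAlgClosed.exists_pow_nat_eq c (Nat.pos_of_ne_zero ht)
  have hc₁0 : algebraMap Qb (FF N) c₁ ≠ 0 := by
    intro h0
    have : (ζ : FF N) = 0 := by rw [← hc, ← hc₁, map_pow, h0, zero_pow ht]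
    exact ζ.ne_zero this
  refine ⟨Units.mk0 _ hc₁0 * u, ?_⟩
  have e : (Units.mk0 _ hc₁0 : (FF N)ˣ) ^ t = ζ := by
    apply Units.ext
    rw [Units.val_pow_eq_pow_val, Units.val_mk0, ← map_pow, hc₁, hc]
  rw [mul_pow, e, hζ, inv_mul_cancel_right]

theorem KOrd_mem_of_pow_mem (A : ValuationSubring Qb) {K : ℕ} (hK : K ≠ 0) {z : Qb}
    (hz : z ^ K ∈ A) : z ∈ A := by
  rw [← A.valuation_le_one_iff] at hz ⊢
  rw [map_pow] at hz
  exact (pow_le_one_iff hK).1 hz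

/-- `RedConst` descends along `p ^ j`-th powers. -/
theorem KOrd_redConst {N p : ℕ} [NeZero N] (hp : p.Prime) (A : ValuationSubring Qb)
    (hA : A.LiesOverPrime p) (j : ℕ) (v : FF N) (hv : v ≠ 0) (h : RedConst A (v ^ p ^ j)) :
    RedConst A v := by
  have hK : p ^ j ≠ 0 := pow_ne_zero _ hp.ne_zero
  obtain ⟨c, y₁, y₂, hc, -, -, hy, hy2, e⟩ := h
  have h1 : RedTo A (cst c * ((v ^ p ^ j : FF N) : LaurentSeries Qb)) 1 :=
    ⟨y₁, y₂, hy2, e, by rw [one_mul, hy]⟩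
  obtain ⟨c₀, r, hc₀, hr, h₀⟩ := exists_redTo A v hv
  have h2 := (h₀.pow (p ^ j)).mul (h1.inv one_ne_zero)
  have hv' : (v : LaurentSeries Qb) ≠ 0 := fun h => hv (Subtype.ext h)
  have hcc : cst c ≠ 0 := by rw [Ne, map_eq_zero]; exact hc
  have h3 : (cst c₀ * (v : LaurentSeries Qb)) ^ p ^ j *
      (cst c * ((v ^ p ^ j : FF N) : LaurentSeries Qb))⁻¹ = cst (c₀ ^ p ^ j / c) := by
    have e1 : cst (c₀ ^ p ^ j / c) = cst c₀ ^ p ^ j / cst c := by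
      have e0 : cst (c₀ ^ p ^ j) = cst c₀ ^ p ^ j := map_pow _ _ _
      rw [← e0]
      exact map_div₀ _ _ _
    have e2 : ((v ^ p ^ j : FF N) : LaurentSeries Qb) = (v : LaurentSeries Qb) ^ p ^ j := rfl
    have e3 := pow_ne_zero (p ^ j) hv'
    rw [e1, e2, mul_pow]
    field_simp
  rw [h3, inv_one, mul_one] at h2
  obtain ⟨a, ha, hra⟩ := h2.const
  obtain ⟨a', ha'⟩ := IsAlgClosed.exists_pow_nat_eq (a : Qb) (Nat.pos_of_ne_zero hK)
  have ha'A : a' ∈ A := KOrd_mem_of_pow_mem A hK (by rw [ha']; exact a.2)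
  have haa : (⟨a', ha'A⟩ : A) ^ p ^ j = a := Subtype.ext ha'
  have : CharP (kA A) p := charP_kA hp hA
  have : Fact p.Prime := ⟨hp⟩
  have : CharP (LaurentSeries (kA A)) p :=
    charP_of_injective_algebraMap (algebraMap (kA A) (LaurentSeries (kA A))).injective p
  have hr' : r = cstk A (resA A ⟨a', ha'A⟩) := by
    have h4 : (r - cstk A (resA A ⟨a', ha'A⟩)) ^ p ^ j = 0 := by
      have e0 : cstk A (resA A ⟨a', ha'A⟩ ^ p ^ j) = cstk A (resA A ⟨a', ha'A⟩) ^ p ^ j :=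
        map_pow _ _ _
      rw [sub_pow_char_pow, hra, ← haa, map_pow, e0, sub_self]
    exact sub_eq_zero.1 (pow_eq_zero_iff hK |>.1 h4)
  have hres : cstk A (resA A ⟨a', ha'A⟩) ≠ 0 := hr' ▸ hr
  have h5 := ((RedTo.cst_of_mem (⟨a', ha'A⟩ : A)).inv hres).mul h₀
  rw [← hr', inv_mul_cancel₀ hr] at h5
  have ha'0 : a' ≠ 0 := by
    rintro rfl
    apply hres
    have : (⟨0, ha'A⟩ : A) = 0 := rfl
    rw [this, map_zero]
    exact map_zero _
  refine redConst_of_redTo v (a'⁻¹ * c₀) (mul_ne_zero (inv_ne_zero ha'0) hc₀) ?_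
  refine h5.congr ?_ rfl
  have e1 : cst (a'⁻¹ * c₀) = (cst a')⁻¹ * cst c₀ := by
    have e0 : cst a'⁻¹ = (cst a')⁻¹ := map_inv₀ _ _
    rw [← e0]
    exact map_mul _ _ _
  rw [e1, mul_assoc]

theorem KOrd_inK1 {N p : ℕ} [NeZero N] (hp : p.Prime) (A : ValuationSubring Qb)
    (hA : A.LiesOverPrime p) (j : ℕ) (f : Dm N (p ^ (j + 1))) (h : Dm N p)
    (hfh : (f : (FF N)ˣ) = (h : (FF N)ˣ) ^ p ^ j) (hK : InK1 A (Kum.mk f)) :
    InK1 A (Kum.mk h) := by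
  obtain ⟨u, hu, hred⟩ := hK
  obtain ⟨g, hg⟩ := (Kum.mk_eq_mk_iff u f).1 hu
  have hgp : g ^ p ∈ Dm N p := Pw_le_Dm N p ⟨g, rfl⟩
  refine ⟨h * ⟨g ^ p, hgp⟩, ?_, ?_⟩
  · rw [Kum.mk_eq_mk_iff]
    exact ⟨g, by simp⟩
  · apply KOrd_redConst hp A hA j _ (Units.ne_zero _)
    have e : (u : (FF N)ˣ) = ((h : (FF N)ˣ) * g ^ p) ^ p ^ j := by
      rw [mul_pow, ← hfh, ← pow_mul, ← pow_succ', hg, mul_comm, inv_mul_cancel_right]
    have e' : (((h * ⟨g ^ p, hgp⟩ : Dm N p) : (FF N)ˣ) : FF N) ^ p ^ j = ((u : (FF N)ˣ) : FF N) := by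
      rw [e, Units.val_pow_eq_pow_val]
      rfl
    rw [e']
    exact hred

theorem ord_pow {M p : ℕ} [NeZero M] [NeZero p] [NeZero (M * p)] (hp : p.Prime)
    (hord : Ord M p hp) (A : ValuationSubring Qb) (hA : A.LiesOverPrime p)
    {w : FF (M * p) →ₐ[Qb] FF (M * p)} (hw : IsAL M p w) (σ : GQ)
    (hσ : σ ∈ A.inertiaSubgroupIn ℚ) (hω : OmegaNe p σ) (n : ℕ) (x : Kum (M * p) (p ^ n))
    (h1 : InK1 A x) (h2 : InK1 A (wKum hw hp (p ^ n) x)) (hpx : p • x = 0)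
    (hσx : galKum (M * p) (p ^ n) σ x = x) : x = 0 := by
  cases n with
  | zero =>
    have h0 : (1 : ℕ) • x = 0 := Kum.nsmul_eq_zero x
    rwa [one_smul] at h0
  | succ j =>
    have hK : p ^ j ≠ 0 := pow_ne_zero _ hp.ne_zero
    obtain ⟨f, rfl⟩ := Kum.mk_surjective x
    -- (a)
    rw [← Kum.mk_pow, Kum.mk_eq_zero_iff] at hpx
    obtain ⟨g, hg⟩ := hpx
    obtain ⟨h, hh⟩ := KOrd_exists_root (f : (FF (M * p))ˣ) g p (p ^ j) hp.ne_zero hK (by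
      rw [← pow_mul, ← pow_succ, hg]; rfl)
    have hhD : h ∈ Dm (M * p) p := by
      intro P
      have h1 := f.2 P
      rw [← hh] at h1
      have h2 : ((h ^ p ^ j : (FF (M * p))ˣ) : FF (M * p)) = (h : FF (M * p)) ^ ((p ^ j : ℕ) : ℤ) := by
        rw [zpow_natCast, Units.val_pow_eq_pow_val]
      rw [h2, P.ord_zpow] at h1
      have h3 : ((p ^ (j + 1) : ℕ) : ℤ) = ((p ^ j : ℕ) : ℤ) * (p : ℤ) := by push_cast; ring
      rw [h3] at h1
      exact (mul_dvd_mul_iff_left (by exact_mod_cast hK)).1 h1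
    -- (d)
    have hy : Kum.mk (⟨h, hhD⟩ : Dm (M * p) p) = 0 := by
      refine hord A hA w hw σ hσ hω _ ?_ ?_ ?_
      · exact KOrd_inK1 hp A hA j f ⟨h, hhD⟩ hh.symm h1
      · rw [wKum_mk] at h2 ⊢
        refine KOrd_inK1 hp A hA j _ _ ?_ h2
        show wU w (f : (FF (M * p))ˣ) = (wU w h) ^ p ^ j
        rw [← map_pow, hh]
      · rw [galKum_mk, Kum.mk_eq_mk_iff] at hσx ⊢
        obtain ⟨u, hu⟩ := hσx
        refine KOrd_exists_root _ u (p ^ j) p hK hp.ne_zero ?_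
        show (galU (M * p) σ h * h⁻¹) ^ p ^ j = _
        rw [mul_pow, inv_pow, ← map_pow, hh, ← pow_mul, ← pow_succ']
        exact hu.symm
    rw [Kum.mk_eq_zero_iff] at hy ⊢
    obtain ⟨v, hv⟩ := hy
    refine ⟨v, ?_⟩
    have hv' : v ^ p = h := hv
    have e : v ^ p ^ (j + 1) = (v ^ p) ^ p ^ j := by rw [← pow_mul, ← pow_succ']
    rw [e, hv', hh]

end Fermat.Agent.S33.Soft
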