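import Fermat.Agent.S33.Soft.KRing
import Fermat.Agent.S33.Soft.KChi
import Fermat.Agent.S33.Soft.KConn
import Fermat.Agent.S33.Soft.KOrd

/-!
# S33 / Soft-KData : `Kum (M p) (p ^ n)` as a `Soft.Data`

`c`, `R`, `evM`, `evT` from `exists_hecke_ring`; `n := k + c`; `M := Kum (M p) (p ^ n)`
(`ES.Glue.finite_Kum`), `gal := S31.galEnd`, `kill := Kum.nsmul_eq_zero`, `χ` from `exists_chi`.
`Y := S31.kumTest hp hpS hNS q' n hq' hq'S (hcrux n)` (`exists_aux_prime`; `Y.M`, `Y.gal`, `Y.hecke` are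
`Kum …`, `galEnd`, `heckeEndNat` by `rfl`), `ζ` a primitive `p ^ n`-th root of unity.
* `tr g` : `S31.approx_det H.ρ hp S hpS (aT hNS H) (charpoly_aT hNS H) Y k ζ _ g` gives `ℓ j`;
  `F` from the last clause of `exists_hecke_ring` with `f := dickson 1 ℓ j`; `χ g = ℓ ^ j`.
* `a := ℓ ^ j` for `g = σ0` and precision `max k 1` (or apply `approx_det` once more with `k := 1`).
* `ord` : `SS.exists_isAL M p hp hpM`, `aug_le_conn`, `ord_pow`.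
-/

set_option autoImplicit false

namespace Fermat.Agent.S33.Soft

open Polynomial IsLocalRing Fermat.Agent.ES Fermat.Agent.SS

variable {p M : ℕ} [NeZero M] [NeZero p] [NeZero (M * p)] {S : Finset ℕ}
  {𝒪 : Type} [CommRing 𝒪] [IsDomain 𝒪] [IsDiscreteValuationRing 𝒪]
  [IsAdicComplete (IsLocalRing.maximalIdeal 𝒪) 𝒪]
  {θ : CuspForm.heckeAlgebra (M * p) 2 (↑S : Set ℕ) →+* IsLocalRing.ResidueField 𝒪}
  {T : Type} [CommRing T] [IsLocalRing T] [IsNoetherianRing T]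
  [IsAdicComplete (IsLocalRing.maximalIdeal T) T] [Algebra 𝒪 T] [IsLocalHom (algebraMap 𝒪 T)]
  [Module.Finite 𝒪 T] [Module.Free 𝒪 T]

theorem exists_data
    (hcrux : ∀ n ℓ : ℕ, ℓ.Prime → ¬ ℓ ∣ (M * p) * p ^ n → Crux (M * p) ℓ (p ^ n))
    (hp : p.Prime) (hpM : ¬ p ∣ M) (hord : Ord M p hp)
    (hp𝒪 : (p : 𝒪) ∈ IsLocalRing.maximalIdeal 𝒪)
    (hNS : ∀ q : ℕ, q.Prime → q ∣ M * p → q ∈ S)
    (H : CuspForm.HeckeGaloisRepDatum (M * p) (↑S : Set ℕ) 𝒪 θ T)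
    (P : ValuationSubring Qb) (hP : P.LiesOverPrime p) (σ0 : GQ)
    (hσ0 : σ0 ∈ P.inertiaSubgroupIn ℚ) (hω : OmegaNe p σ0) (k : ℕ) :
    Nonempty (Data H.ρ p P σ0 k) := by
  have hpS : p ∈ S := hNS p hp (dvd_mul_left p M)
  obtain ⟨c, hc⟩ := exists_hecke_ring hp hp𝒪 hNS H
  obtain ⟨R, instR, evM, evT, hcomm, hfaith, hpoly⟩ := hc k
  have hfin : Finite (Kum (M * p) (p ^ (k + c))) := Glue.finite_Kum (pow_pos hp.pos (k + c))
  obtain ⟨χ, hχnat, hχ⟩ := exists_chi (n := k + c) hp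
    (X := Kum (M * p) (p ^ (k + c))) Kum.nsmul_eq_zero
  obtain ⟨q', hq'S, hq'⟩ := exists_aux_prime S
  let Y := S31.kumTest hp hpS hNS q' (k + c) hq' hq'S (hcrux (k + c))
  have : NeZero (p ^ (k + c)) := ⟨(pow_pos hp.pos (k + c)).ne'⟩
  obtain ⟨ζ, hζ⟩ := HasEnoughRootsOfUnity.exists_primitiveRoot Qb (p ^ (k + c))
  obtain ⟨ℓ0, j0, hℓ0, hℓ0S, hg0, -, -, hdet0⟩ :=
    S31.approx_det H.ρ hp S hpS (aT hNS H) (charpoly_aT hNS H) Y 1 ζ hζ.pow_eq_one σ0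
  obtain ⟨w, hw⟩ := SS.exists_isAL M p hp hpM
  refine ⟨{
    M := Kum (M * p) (p ^ (k + c))
    R := R
    n := k + c
    gal := S31.galEnd (M * p) (p ^ (k + c))
    evM := evM
    evT := evT
    χ := χ
    a := ℓ0 ^ j0
    kill := Kum.nsmul_eq_zero
    comm := hcomm
    χ_nat := hχnat
    χ_σ0 := hχ σ0 _ ζ hζ hg0
    a_det := by simpa using hdet0
    tr := ?_
    faith := hfaith
    ord := ?_ }⟩
  · intro g
    obtain ⟨ℓ, j, hℓ, hℓS, hg, hY, htr, -⟩ :=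
      S31.approx_det H.ρ hp S hpS (aT hNS H) (charpoly_aT hNS H) Y k ζ hζ.pow_eq_one g
    obtain ⟨F, hF1, hF2⟩ := hpoly ℓ hℓ hℓS (dickson 1 ((ℓ : ℕ) : ℤ) j)
    refine ⟨F, ?_, ?_⟩
    · rw [hF1, hχ g _ ζ hζ hg]
      exact hY
    · rw [hF2]
      exact htr
  · intro x hx hpx hσx
    obtain ⟨h1, h2⟩ := aug_le_conn hp hw (p ^ (k + c)) x hx
    exact ord_pow hp hord P hP hw σ0 hσ0 hω (k + c) x h1 h2 hpx hσx

end Fermat.Agent.S33.Soft
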