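import Fermat.Agent.S33.Soft.KSetup

/-!
# S33 / Soft-KFaith : faithfulness of the Hecke action on `Kum N (p ^ n)`, for arbitrary
noncommutative polynomials in the `T_ℓ`, `ℓ ∉ S`

Generalisation of `S31.faith_kumTest` (same proof: `Rel.exists_shift (perL_injective N)`,
`strongSupp_Kum`).  Push `F : FreeAlgebra ℤ (GP S)` to `F' : FreeAlgebra ℤ (D.GoodPrime N)` along
`ℓ ↦ ⟨ℓ, _, _⟩` (`FreeAlgebra.lift ℤ (FreeAlgebra.ι ℤ ∘ _)`), and compare the three `lift`s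
(`FreeAlgebra.hom_ext`/induction; `S31.equiv_heckeEndNat`, `tT_eq`; the coercion
`(CuspForm.heckeAlgebra N 2 S).val` is an algebra hom).
-/

set_option autoImplicit false

namespace Fermat.Agent.S33.Soft

open Polynomial IsLocalRing Fermat.Agent.ES Fermat.Agent.ES.Glue

noncomputable section

/-- the primes outside `S`. -/
abbrev GP (S : Finset ℕ) : Type := {ℓ : ℕ // ℓ.Prime ∧ ℓ ∉ S}

theorem faith_free {p : ℕ} (hp : p.Prime) (N : ℕ) [NeZero N] (S : Finset ℕ)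
    (hNS : ∀ q : ℕ, q.Prime → q ∣ N → q ∈ S) :
    ∃ c : ℕ, ∀ (n : ℕ) (F : FreeAlgebra ℤ (GP S)),
      FreeAlgebra.lift ℤ (fun ℓ : GP S => S31.heckeEndNat N (p ^ n) ℓ.1) F = 0 →
      ∃ z : CuspForm.heckeAlgebra N 2 (↑S : Set ℕ),
        FreeAlgebra.lift ℤ (fun ℓ : GP S => tT hNS ℓ.1) F = (p ^ (n - c) : ℕ) • z := by
  obtain ⟨c, hc⟩ := Rel.exists_shift (perL_injective N) (CuspForm.heckeAlgebra N 2 (↑S : Set ℕ)) p
  refine ⟨c, fun n F hF => ?_⟩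
  let j : GP S → D.GoodPrime N := fun ℓ => ⟨ℓ.1, ℓ.2.1, not_dvd_of_notMem hNS ℓ.2.1 ℓ.2.2⟩
  let Φ : FreeAlgebra ℤ (GP S) →ₐ[ℤ] FreeAlgebra ℤ (D.GoodPrime N) :=
    FreeAlgebra.lift ℤ (fun ℓ => FreeAlgebra.ι ℤ (j ℓ))
  have hlift : ∀ {B : Type} [Ring B] [Algebra ℤ B] (b : D.GoodPrime N → B),
      FreeAlgebra.lift ℤ b (Φ F) = FreeAlgebra.lift ℤ (fun ℓ => b (j ℓ)) F := by
    intro B _ _ b
    have h1 : (FreeAlgebra.lift ℤ b).comp Φ = FreeAlgebra.lift ℤ (fun ℓ => b (j ℓ)) := by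
      apply FreeAlgebra.hom_ext
      funext ℓ
      simp only [Function.comp_apply, AlgHom.comp_apply, Φ, FreeAlgebra.lift_ι_apply]
    exact DFunLike.congr_fun h1 F
  have h0 : FreeAlgebra.lift ℤ (heckeT N (p ^ n)) (Φ F) = 0 := by
    rw [hlift]
    have h1 : FreeAlgebra.lift ℤ (fun ℓ : GP S => heckeT N (p ^ n) (j ℓ))
        = ((addMonoidEndRingEquivInt (Kum N (p ^ n))).toRingHom.toIntAlgHom).comp
          (FreeAlgebra.lift ℤ (fun ℓ : GP S => S31.heckeEndNat N (p ^ n) ℓ.1)) := by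
      apply FreeAlgebra.hom_ext
      funext ℓ
      simp only [Function.comp_apply, AlgHom.comp_apply, FreeAlgebra.lift_ι_apply]
      exact (S31.equiv_heckeEndNat N _ ℓ.2.1 (not_dvd_of_notMem hNS ℓ.2.1 ℓ.2.2)).symm
    rw [h1, AlgHom.comp_apply, hF, map_zero]
  obtain ⟨A', hA'⟩ := strongSupp_Kum (pow_pos hp.pos n) (Φ F) h0
  refine hc n A' _ ?_
  rw [hlift] at hA'
  have h2 : ((FreeAlgebra.lift ℤ (fun ℓ : GP S => tT hNS ℓ.1) F :
      CuspForm.heckeAlgebra N 2 (↑S : Set ℕ)) :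
        Module.End ℂ (CuspForm (CongruenceSubgroup.Gamma0 N) 2))
      = FreeAlgebra.lift ℤ (fun ℓ => D.heckeS2 N (j ℓ)) F := by
    have h3 : (CuspForm.heckeAlgebra N 2 (↑S : Set ℕ)).val.comp
        (FreeAlgebra.lift ℤ (fun ℓ : GP S => tT hNS ℓ.1))
        = FreeAlgebra.lift ℤ (fun ℓ => D.heckeS2 N (j ℓ)) := by
      apply FreeAlgebra.hom_ext
      funext ℓ
      simp only [Function.comp_apply, AlgHom.comp_apply, FreeAlgebra.lift_ι_apply,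
        tT_eq hNS ℓ.2.1 ℓ.2.2]
      rfl
    exact DFunLike.congr_fun h3 F
  rw [h2]
  exact hA'

end

end Fermat.Agent.S33.Soft
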