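import Fermat.Agent.S33.Defs
import Fermat.Agent.S17.H.Ram
import Fermat.Agent.S36.Base.Inertia

/-!
# S33 / Soft-KIner : inertia at `p` acts nontrivially on `μ_p`  (`p` odd)

`ℚ(ζ_p)/ℚ` is totally ramified at `p`.  Proof used here: if the inertia group `I_P` fixed `ζ`
(a primitive `p`-th root of unity), then `x = ζ - 1` would lie in the inertia field `L0 P`, whose
value group is generated by the value of `p` (`S36.Base.exists_zpow_mul_mem`); but
`p = ± ∏_{k<p-1} (ζ^(k+1) - 1) = unit * x^(p-1)`, so `v(p) = v(x)^(p-1)`, forcing `p - 1 = 1`.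
-/

set_option autoImplicit false

namespace Fermat.Agent.S33.Soft

open Fermat.Agent.ES

/-- `v(p) = v(ζ - 1)^(p-1)` for a primitive `p`-th root of unity `ζ` (here `p = n + 1`). -/
theorem kIner_valuation_eq {n : ℕ} (hp : (n + 1).Prime) (P : ValuationSubring Qb) {ζ : Qb}
    (hζ : IsPrimitiveRoot ζ (n + 1)) :
    P.valuation ((n + 1 : ℕ) : Qb) = P.valuation (ζ - 1) ^ n := by
  have hv1 : P.valuation ζ = 1 := by
    have h1 : P.valuation ζ ^ (n + 1) = 1 := by
      rw [← map_pow, hζ.pow_eq_one, map_one]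
    exact (pow_eq_one_iff_of_nonneg zero_le (Nat.succ_ne_zero n)).1 h1
  have hmem : ζ ∈ P := (P.valuation_le_one_iff ζ).1 hv1.le
  let z : P := ⟨ζ, hmem⟩
  have hz : IsPrimitiveRoot z (n + 1) :=
    IsPrimitiveRoot.of_map_of_injective (f := P.subtype) hζ Subtype.val_injective
  have hprod := hz.prod_pow_sub_one_eq_order
  have hprod' : (-1 : Qb) ^ n * ∏ k ∈ Finset.range n, (ζ ^ (k + 1) - 1) = (n : Qb) + 1 := by
    have := congrArg (P.subtype) hprod
    simpa [z] using this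
  have hval : ∀ k ∈ Finset.range n, P.valuation (ζ ^ (k + 1) - 1) = P.valuation (ζ - 1) := by
    intro k hk
    have hk' : k + 1 < n + 1 := by
      have := Finset.mem_range.1 hk
      omega
    have hcop : (k + 1).Coprime (n + 1) :=
      (Nat.coprime_of_lt_prime (Nat.succ_ne_zero k) hk' hp).symm
    obtain ⟨u, hu⟩ := hz.associated_sub_one_pow_sub_one_of_coprime hcop
    have hu' : (ζ - 1) * ((u : P) : Qb) = ζ ^ (k + 1) - 1 := by
      have := congrArg (P.subtype) hu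
      simpa [z] using this
    rw [← hu', map_mul, P.valuation_unit u, mul_one]
  rw [Nat.cast_add, Nat.cast_one, ← hprod', map_mul, map_pow, Valuation.map_neg, map_one, one_pow,
    one_mul, map_prod, Finset.prod_congr rfl hval, Finset.prod_const, Finset.card_range]

theorem exists_inertia_omegaNe {p : ℕ} (hp : p.Prime) (hp2 : p ≠ 2) (P : ValuationSubring Qb)
    (hP : P.LiesOverPrime p) : ∃ σ ∈ P.inertiaSubgroupIn ℚ, OmegaNe p σ := by
  by_contra hcon
  push Not at hcon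
  obtain ⟨n, rfl⟩ : ∃ n, p = n + 1 := ⟨p - 1, by have := hp.pos; omega⟩
  have : NeZero (n + 1) := ⟨Nat.succ_ne_zero n⟩
  obtain ⟨ζ, hζ⟩ := HasEnoughRootsOfUnity.exists_primitiveRoot Qb (n + 1)
  have hfix : ∀ σ ∈ P.inertiaSubgroupIn ℚ, σ ζ = ζ := by
    intro σ hσ
    by_contra hne
    exact hcon σ hσ ⟨ζ, hζ.pow_eq_one, hne⟩
  have hx : ζ - 1 ∈ Fermat.Agent.S36.Base.L0 P := by
    rw [Fermat.Agent.S36.Base.mem_L0_iff]
    intro σ hσ
    rw [map_sub, map_one, hfix σ hσ]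
  have hx0 : ζ - 1 ≠ 0 := by
    intro h
    have h1 : ζ = 1 := sub_eq_zero.1 h
    have := hζ.eq_orderOf
    rw [h1, orderOf_one] at this
    exact hp.one_lt.ne' this
  obtain ⟨k, hk1, hk2⟩ := Fermat.Agent.S36.Base.exists_zpow_mul_mem hp hP hx hx0
  set t := P.valuation ((n + 1 : ℕ) : Qb) with ht
  have ht1 : t < 1 := (P.mem_nonunits_iff).1 hP
  have hp0 : ((n + 1 : ℕ) : Qb) ≠ 0 := by exact_mod_cast Nat.succ_ne_zero n
  have ht0 : t ≠ 0 := (Valuation.ne_zero_iff _).2 hp0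
  have hveq : t = P.valuation (ζ - 1) ^ n := kIner_valuation_eq hp P hζ
  have hone : P.valuation (ζ - 1) * t ^ k = 1 := by
    have h1 : P.valuation ((ζ - 1) * ((n + 1 : ℕ) : Qb) ^ k) ≤ 1 := (P.valuation_le_one_iff _).2 hk1
    have h2 : P.valuation ((ζ - 1) * ((n + 1 : ℕ) : Qb) ^ k)⁻¹ ≤ 1 :=
      (P.valuation_le_one_iff _).2 hk2
    have hne : P.valuation ((ζ - 1) * ((n + 1 : ℕ) : Qb) ^ k) ≠ 0 :=
      (Valuation.ne_zero_iff _).2 (mul_ne_zero hx0 (zpow_ne_zero _ hp0))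
    rw [map_inv₀] at h2
    have h3 : 1 ≤ P.valuation ((ζ - 1) * ((n + 1 : ℕ) : Qb) ^ k) :=
      (inv_le_one₀ (zero_lt_iff.2 hne)).1 h2
    have h4 := le_antisymm h1 h3
    rwa [map_mul, map_zpow₀] at h4
  have hvx : P.valuation (ζ - 1) = t ^ (-k) := by
    rw [zpow_neg]
    exact eq_inv_of_mul_eq_one_left hone
  have hpow : t ^ (1 : ℤ) = t ^ (-k * n) := by
    rw [zpow_one, zpow_mul, ← hvx, zpow_natCast]
    exact hveq
  have hinj := zpow_right_injective₀ (zero_lt_iff.2 ht0) ht1.ne hpow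
  have hn1 : (n : ℤ) ∣ 1 := ⟨-k, by rw [hinj]; ring⟩
  have hn : n = 1 := by
    have := Int.natAbs_dvd_natAbs.2 hn1
    simpa using this
  exact hp2 (by rw [hn])

end Fermat.Agent.S33.Soft
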