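import Fermat.Agent.S33.Soft.KSetup

/-!
# S33 / Soft-KRes : the two residual facts on `ρ(σ0)`

* `res_trace` : `residue (tr f) = tr (f.baseChange κ)` (`LinearMap.trace_baseChange`),
  `residue (det f) = det (f.baseChange κ)` (`LinearMap.det_baseChange`);
  `(ofResidualGaloisRep ρ.residual).ρ σ = (ρ.ρ σ).baseChange κ` by `rfl`.  From `hres P hP`: a basis
  `b` with `L = κ ∙ b 0`, `f̄ (b 0) = α b 0` (`σ0 ∈ D_P`, `Soft.inertia_le_decomposition` or directly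
  `Subgroup.mem_map`), `f̄ (b 1) = b 1 + β b 0`; so `tr = α + 1`, `det = α`
  (`LinearMap.trace_eq_matrix_trace`, `LinearMap.det_toMatrix`, `Matrix.det_fin_two`).
* `det_sub_one_notMem` : `S31.approx_det` with `Y := S31.kumTest … q' 1 …` (`exists_aux_prime`),
  `k = 1`, `ζ` from `hω`: `det ρ(σ0) ≡ ℓ ^ j mod 𝔪`, `σ0 ζ = ζ ^ (ℓ ^ j) ≠ ζ`, so `p ∤ ℓ ^ j - 1`, which is
  therefore a unit of `T` (Bézout with `p ∈ 𝔪`).
-/

set_option autoImplicit false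

namespace Fermat.Agent.S33.Soft

open Polynomial IsLocalRing Fermat.Agent.ES

/-- abstract `2 × 2` computation: `g ≡ 1` modulo the line `κ ∙ b 0` gives `tr g = 1 + det g`. -/
theorem KRes_trace_eq {κ W : Type*} [Field κ] [AddCommGroup W] [Module κ W]
    (b : Module.Basis (Fin 2) κ W) (g : Module.End κ W)
    (hg : ∀ v, g v - v ∈ Submodule.span κ {b 0}) :
    LinearMap.trace κ W g - 1 - LinearMap.det g = 0 := by
  obtain ⟨c, hc⟩ : ∃ c : κ, c • b 0 = g (b 0) - b 0 := Submodule.mem_span_singleton.mp (hg (b 0))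
  obtain ⟨β, hβ⟩ : ∃ β : κ, β • b 0 = g (b 1) - b 1 := Submodule.mem_span_singleton.mp (hg (b 1))
  have h0 : g (b 0) = (c + 1) • b 0 := by
    rw [add_smul, one_smul, hc]; abel
  have h1 : g (b 1) = β • b 0 + b 1 := by
    rw [hβ]; abel
  have hM : LinearMap.toMatrix b b g = !![c + 1, β; 0, 1] := by
    ext i j
    rw [LinearMap.toMatrix_apply]
    fin_cases j
    · simp only [Fin.zero_eta, h0]
      fin_cases i <;> simp
    · simp only [Fin.mk_one, h1]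
      fin_cases i <;> simp
  have htr : LinearMap.trace κ _ g = c + 1 + 1 := by
    rw [LinearMap.trace_eq_matrix_trace κ b, hM, Matrix.trace_fin_two_of]
  have hdet : LinearMap.det g = c + 1 := by
    rw [← LinearMap.det_toMatrix b, hM, Matrix.det_fin_two_of]; ring
  rw [htr, hdet]; ring

theorem res_trace {T : Type} [CommRing T] [IsLocalRing T] (ρ : GaloisRepAdic T) (p : ℕ)
    (hres : (GaloisRepAdic.ofResidualGaloisRep ρ.residual).IsOrdinaryAt p)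
    (P : ValuationSubring Qb) (hP : P.LiesOverPrime p) (σ0 : GQ)
    (hσ0 : σ0 ∈ P.inertiaSubgroupIn ℚ) :
    LinearMap.trace T ρ.V (ρ.ρ σ0) - 1 - LinearMap.det (ρ.ρ σ0) ∈ maximalIdeal T := by
  obtain ⟨L, ⟨b, hL⟩, -, hin⟩ := hres P hP
  have key := KRes_trace_eq b ((GaloisRepAdic.ofResidualGaloisRep ρ.residual).ρ σ0)
    (fun v => hL ▸ hin σ0 hσ0 v)
  have htr' : LinearMap.trace (ResidueField T) (TensorProduct T (ResidueField T) ρ.V)
      ((ρ.ρ σ0).baseChange (ResidueField T)) = residue T (LinearMap.trace T ρ.V (ρ.ρ σ0)) :=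
    LinearMap.trace_baseChange (ρ.ρ σ0) (ResidueField T)
  have hdet' : LinearMap.det ((ρ.ρ σ0).baseChange (ResidueField T))
      = residue T (LinearMap.det (ρ.ρ σ0)) :=
    LinearMap.det_baseChange (ρ.ρ σ0)
  rw [← residue_eq_zero_iff, map_sub, map_sub, map_one, ← htr', ← hdet']
  exact key

variable {N : ℕ} [NeZero N] {p : ℕ} {S : Finset ℕ}
  {𝒪 : Type} [CommRing 𝒪] [IsDomain 𝒪] [IsDiscreteValuationRing 𝒪]
  [IsAdicComplete (IsLocalRing.maximalIdeal 𝒪) 𝒪]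
  {θ : CuspForm.heckeAlgebra N 2 (↑S : Set ℕ) →+* IsLocalRing.ResidueField 𝒪}
  {T : Type} [CommRing T] [IsLocalRing T] [IsNoetherianRing T]
  [IsAdicComplete (IsLocalRing.maximalIdeal T) T] [Algebra 𝒪 T] [IsLocalHom (algebraMap 𝒪 T)]
  [Module.Finite 𝒪 T] [Module.Free 𝒪 T]

theorem det_sub_one_notMem
    (hcrux : ∀ n ℓ : ℕ, ℓ.Prime → ¬ ℓ ∣ N * p ^ n → Crux N ℓ (p ^ n))
    (hp : p.Prime) (hp𝒪 : (p : 𝒪) ∈ IsLocalRing.maximalIdeal 𝒪) (hpS : p ∈ S)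
    (hNS : ∀ q : ℕ, q.Prime → q ∣ N → q ∈ S)
    (H : CuspForm.HeckeGaloisRepDatum N (↑S : Set ℕ) 𝒪 θ T) (σ0 : GQ) (hω : OmegaNe p σ0) :
    LinearMap.det (H.ρ.ρ σ0) - 1 ∉ maximalIdeal T := by
  intro hmem
  obtain ⟨ζ, hζ, hne⟩ := hω
  obtain ⟨q', hq'S, hq'⟩ := exists_aux_prime S
  let Y := S31.kumTest hp hpS hNS q' 1 hq' hq'S (hcrux 1)
  obtain ⟨ℓ, j, -, -, hz, -, -, hdet⟩ := S31.approx_det H.ρ hp S hpS (aT hNS H) (charpoly_aT hNS H)
    Y 1 ζ (by rwa [pow_one]) σ0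
  rw [pow_one] at hdet
  have h1 : ((ℓ ^ j : ℕ) : T) - 1 ∈ maximalIdeal T := by
    have : ((ℓ ^ j : ℕ) : T) - 1
        = (LinearMap.det (H.ρ.ρ σ0) - 1) - (LinearMap.det (H.ρ.ρ σ0) - ((ℓ ^ j : ℕ) : T)) := by ring
    rw [this]
    exact Ideal.sub_mem _ hmem hdet
  have hpT : (p : T) ∈ maximalIdeal T := natCast_mem_maximalIdeal_T hp𝒪
  have hdvd : (p : ℤ) ∣ ((ℓ ^ j : ℕ) : ℤ) - 1 := by
    by_contra hnd
    have hcop : IsCoprime (p : ℤ) (((ℓ ^ j : ℕ) : ℤ) - 1) :=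
      (Nat.prime_iff_prime_int.mp hp).coprime_iff_not_dvd.mpr hnd
    obtain ⟨u, v, huv⟩ := hcop
    have h2 := congrArg (Int.cast : ℤ → T) huv
    push_cast at h2
    have h3 : (1 : T) ∈ maximalIdeal T := by
      rw [← h2]
      refine Ideal.add_mem _ (Ideal.mul_mem_left _ _ hpT) (Ideal.mul_mem_left _ _ ?_)
      simpa using h1
    exact (Ideal.ne_top_iff_one _).mp (maximalIdeal.isMaximal T).ne_top h3
  apply hne
  rw [hz]
  obtain ⟨m, hm⟩ := hdvd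
  have hm0 : 0 ≤ m := by
    by_contra hneg
    push Not at hneg
    have h4 : (0 : ℤ) ≤ ((ℓ ^ j : ℕ) : ℤ) := Int.natCast_nonneg _
    have h5 : (p : ℤ) * m ≤ -(p : ℤ) := by
      have hp0 : (0 : ℤ) < p := by exact_mod_cast hp.pos
      nlinarith
    have hp2 : (2 : ℤ) ≤ p := by exact_mod_cast hp.two_le
    omega
  obtain ⟨m', rfl⟩ := Int.eq_ofNat_of_zero_le hm0
  have h6 : ℓ ^ j = 1 + p * m' := by
    have : ((ℓ ^ j : ℕ) : ℤ) = ((1 + p * m' : ℕ) : ℤ) := by push_cast; push_cast at hm; linarith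
    exact_mod_cast this
  rw [h6, pow_add, pow_one, pow_mul, hζ, one_pow, mul_one]

end Fermat.Agent.S33.Soft
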