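import Fermat.Agent.S33.Soft.KFaith

/-!
# S33 / Soft-KRing : the commutative ring `R` of Hecke polynomials

`c` from `faith_free`.  `R := Algebra.adjoin ℤ (Set.range fun ℓ : GP S => (T_ℓ, a_ℓ))` inside
`AddMonoid.End (Kum N (p ^ n)) × T`, a commutative ring by `Algebra.adjoinCommRingOfComm`
(`ES.heckeKum_comm`, `S31.heckeEndNat_eq`); `evM`, `evT` : the two projections.
* commutation with Galois: `Algebra.adjoin_induction`, `ES.galKum_heckeKum`;
* faithfulness: `Algebra.adjoin_range_eq_range_freeAlgebra_lift`: every element of `R` is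
  `(lift T_ℓ F, lift a_ℓ F)`; `lift a_ℓ F = H.π (lift (tT hNS) F)`; `faith_free`;
  `(p : T) ∈ 𝔪` (`natCast_mem_maximalIdeal_T`), as at the end of `S31.charpoly_of_quadratic_Kum`;
* last clause: `F := aeval ⟨(T_ℓ, a_ℓ), subset_adjoin _⟩ f` (`Polynomial.aeval_algHom_apply`).
-/

set_option autoImplicit false

namespace Fermat.Agent.S33.Soft

open Polynomial IsLocalRing Fermat.Agent.ES Fermat.Agent.ES.Glue

noncomputable section

/-- the abstract construction: `R = ℤ[(t_a, π(t'_a))] ⊆ E × T`. -/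
theorem KRing_abs {X E T A : Type} [Ring E] [CommRing T] [Ring A] (tE : X → E) (tA : X → A)
    (π : A →+* T) (hcomm : ∀ a b, tE a * tE b = tE b * tE a) :
    ∃ (R : Type) (_ : CommRing R) (evM : R →+* E) (evT : R →+* T),
      (∀ g : E, (∀ a, Commute (tE a) g) → ∀ F : R, Commute (evM F) g) ∧
      (∀ F : R, ∃ F' : FreeAlgebra ℤ X,
        evM F = FreeAlgebra.lift ℤ tE F' ∧ evT F = π (FreeAlgebra.lift ℤ tA F')) ∧
      (∀ (a : X) (f : ℤ[X]), ∃ F : R, evM F = aeval (tE a) f ∧ evT F = aeval (π (tA a)) f) := by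
  let gen : X → E × T := fun a => (tE a, π (tA a))
  have hc : ∀ x ∈ Set.range gen, ∀ y ∈ Set.range gen, x * y = y * x := by
    rintro _ ⟨a, rfl⟩ _ ⟨b, rfl⟩
    exact Prod.ext (hcomm a b) (mul_comm _ _)
  have hmc := Algebra.isMulCommutative_adjoin ℤ hc
  let instR : CommRing (Algebra.adjoin ℤ (Set.range gen)) :=
    { (inferInstance : Ring (Algebra.adjoin ℤ (Set.range gen))) with
      mul_comm := fun a b => hmc.is_comm.comm a b }
  let fstA : E × T →ₐ[ℤ] E := (RingHom.fst E T).toIntAlgHom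
  let sndA : E × T →ₐ[ℤ] T := (RingHom.snd E T).toIntAlgHom
  refine ⟨Algebra.adjoin ℤ (Set.range gen), instR,
    { toFun := fun x => x.1.1, map_one' := rfl, map_mul' := fun _ _ => rfl, map_zero' := rfl,
      map_add' := fun _ _ => rfl },
    { toFun := fun x => x.1.2, map_one' := rfl, map_mul' := fun _ _ => rfl, map_zero' := rfl,
      map_add' := fun _ _ => rfl }, ?_, ?_, ?_⟩
  · intro g hg F
    change Commute F.1.1 g
    obtain ⟨x, hx⟩ := F
    change Commute x.1 g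
    induction hx using Algebra.adjoin_induction with
    | mem x hx =>
      obtain ⟨a, rfl⟩ := hx
      exact hg a
    | algebraMap r =>
      have : (algebraMap ℤ (E × T) r).1 = (r : E) := by simp
      rw [this]
      exact Int.cast_commute r g
    | add x y _ _ hx hy => exact hx.add_left hy
    | mul x y _ _ hx hy => exact hx.mul_left hy
  · intro F
    obtain ⟨x, hx⟩ := F
    rw [Algebra.adjoin_range_eq_range_freeAlgebra_lift] at hx
    obtain ⟨F', rfl⟩ := hx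
    refine ⟨F', ?_, ?_⟩
    · change fstA (FreeAlgebra.lift ℤ gen F') = _
      have : fstA.comp (FreeAlgebra.lift ℤ gen) = FreeAlgebra.lift ℤ tE := by
        apply FreeAlgebra.hom_ext
        funext a
        change fstA (FreeAlgebra.lift ℤ gen (FreeAlgebra.ι ℤ a)) =
          FreeAlgebra.lift ℤ tE (FreeAlgebra.ι ℤ a)
        rw [FreeAlgebra.lift_ι_apply, FreeAlgebra.lift_ι_apply]
        rfl
      rw [← this]
      rfl
    · change sndA (FreeAlgebra.lift ℤ gen F') = π.toIntAlgHom (FreeAlgebra.lift ℤ tA F')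
      have : sndA.comp (FreeAlgebra.lift ℤ gen) = π.toIntAlgHom.comp (FreeAlgebra.lift ℤ tA) := by
        apply FreeAlgebra.hom_ext
        funext a
        change sndA (FreeAlgebra.lift ℤ gen (FreeAlgebra.ι ℤ a)) =
          π.toIntAlgHom (FreeAlgebra.lift ℤ tA (FreeAlgebra.ι ℤ a))
        rw [FreeAlgebra.lift_ι_apply, FreeAlgebra.lift_ι_apply]
        rfl
      exact DFunLike.congr_fun this F'
  · intro a f
    have hmem : aeval (gen a) f ∈ Algebra.adjoin ℤ (Set.range gen) :=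
      Algebra.adjoin_mono (Set.singleton_subset_iff.mpr (Set.mem_range_self a))
        (Polynomial.aeval_mem_adjoin_singleton ℤ (gen a))
    refine ⟨⟨aeval (gen a) f, hmem⟩, ?_, ?_⟩
    · change fstA (aeval (gen a) f) = _
      rw [← Polynomial.aeval_algHom_apply]
      rfl
    · change sndA (aeval (gen a) f) = _
      rw [← Polynomial.aeval_algHom_apply]
      rfl

variable {N : ℕ} [NeZero N] {p : ℕ} {S : Finset ℕ}
  {𝒪 : Type} [CommRing 𝒪] [IsDomain 𝒪] [IsDiscreteValuationRing 𝒪]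
  [IsAdicComplete (IsLocalRing.maximalIdeal 𝒪) 𝒪]
  {θ : CuspForm.heckeAlgebra N 2 (↑S : Set ℕ) →+* IsLocalRing.ResidueField 𝒪}
  {T : Type} [CommRing T] [IsLocalRing T] [IsNoetherianRing T]
  [IsAdicComplete (IsLocalRing.maximalIdeal T) T] [Algebra 𝒪 T] [IsLocalHom (algebraMap 𝒪 T)]
  [Module.Finite 𝒪 T] [Module.Free 𝒪 T]

theorem exists_hecke_ring (hp : p.Prime) (hp𝒪 : (p : 𝒪) ∈ IsLocalRing.maximalIdeal 𝒪)
    (hNS : ∀ q : ℕ, q.Prime → q ∣ N → q ∈ S)
    (H : CuspForm.HeckeGaloisRepDatum N (↑S : Set ℕ) 𝒪 θ T) :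
    ∃ c : ℕ, ∀ k : ℕ, ∃ (R : Type) (_ : CommRing R)
      (evM : R →+* AddMonoid.End (Kum N (p ^ (k + c)))) (evT : R →+* T),
      (∀ (F : R) (g : GQ), Commute (evM F) (S31.galEnd N (p ^ (k + c)) g)) ∧
      (∀ F : R, evM F = 0 → evT F ∈ maximalIdeal T ^ k) ∧
      (∀ ℓ : ℕ, ℓ.Prime → ℓ ∉ S → ∀ f : ℤ[X], ∃ F : R,
        evM F = aeval (S31.heckeEndNat N (p ^ (k + c)) ℓ) f ∧ evT F = aeval (aT hNS H ℓ) f) := by
  obtain ⟨c, hc⟩ := faith_free hp N S hNS
  refine ⟨c, fun k => ?_⟩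
  obtain ⟨R, instR, evM, evT, h1, h2, h3⟩ := KRing_abs (X := GP S)
    (fun ℓ : GP S => S31.heckeEndNat N (p ^ (k + c)) ℓ.1) (fun ℓ : GP S => tT hNS ℓ.1) H.π
    (by
      intro ℓ ℓ'
      have : NeZero ℓ.1 := ⟨ℓ.2.1.ne_zero⟩
      have : NeZero ℓ'.1 := ⟨ℓ'.2.1.ne_zero⟩
      simp only [S31.heckeEndNat_eq N (p ^ (k + c)) ℓ.2.1 (not_dvd_of_notMem hNS ℓ.2.1 ℓ.2.2),
        S31.heckeEndNat_eq N (p ^ (k + c)) ℓ'.2.1 (not_dvd_of_notMem hNS ℓ'.2.1 ℓ'.2.2)]
      exact AddMonoidHom.ext fun x => heckeKum_comm ℓ.1 ℓ'.1 _ _ _ _ x)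
  refine ⟨R, instR, evM, evT, ?_, ?_, ?_⟩
  · intro F g
    refine h1 _ (fun ℓ => ?_) F
    have : NeZero ℓ.1 := ⟨ℓ.2.1.ne_zero⟩
    simp only [S31.heckeEndNat_eq N (p ^ (k + c)) ℓ.2.1 (not_dvd_of_notMem hNS ℓ.2.1 ℓ.2.2)]
    exact AddMonoidHom.ext fun x => (galKum_heckeKum N ℓ.1 _ _ g x).symm
  · intro F hF
    obtain ⟨F', e1, e2⟩ := h2 F
    rw [hF] at e1
    obtain ⟨z, hz⟩ := hc (k + c) F' e1.symm
    rw [e2, hz, Nat.add_sub_cancel, map_nsmul, nsmul_eq_mul]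
    push_cast
    exact Ideal.mul_mem_right _ _ (Ideal.pow_mem_pow (natCast_mem_maximalIdeal_T hp𝒪) k)
  · intro ℓ hℓ hℓS f
    exact h3 ⟨ℓ, hℓ, hℓS⟩ f

end

end Fermat.Agent.S33.Soft
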