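import Fermat.Statements.S33
import Fermat.Agent.S33.Defs
import Fermat.Agent.S33.Soft.Defs
import Fermat.Agent.S31.Unipotent

/-!
# S33 / Soft : set-up of the concrete layer (`a_ℓ ∈ T`, Frobenius characteristic polynomials)
-/

set_option autoImplicit false

namespace Fermat.Agent.S33.Soft

open Polynomial IsLocalRing Fermat.Agent.ES

noncomputable section

variable {N : ℕ} [NeZero N] {p : ℕ} {S : Finset ℕ}
  {𝒪 : Type} [CommRing 𝒪] [IsDomain 𝒪] [IsDiscreteValuationRing 𝒪]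
  [IsAdicComplete (IsLocalRing.maximalIdeal 𝒪) 𝒪]
  {θ : CuspForm.heckeAlgebra N 2 (↑S : Set ℕ) →+* IsLocalRing.ResidueField 𝒪}
  {T : Type} [CommRing T] [IsLocalRing T] [IsNoetherianRing T]
  [IsAdicComplete (IsLocalRing.maximalIdeal T) T] [Algebra 𝒪 T] [IsLocalHom (algebraMap 𝒪 T)]
  [Module.Finite 𝒪 T] [Module.Free 𝒪 T]

theorem not_dvd_of_notMem (hNS : ∀ q : ℕ, q.Prime → q ∣ N → q ∈ S) {ℓ : ℕ} (hℓ : ℓ.Prime)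
    (hℓS : ℓ ∉ S) : ¬ ℓ ∣ N := fun h => hℓS (hNS ℓ hℓ h)

theorem notMem_coe {ℓ : ℕ} (h : ℓ ∉ S) : ℓ ∉ (↑S : Set ℕ) := by simpa using h

/-- the generators `T_ℓ`, `ℓ ∉ S`, of the Hecke algebra (and `0` for the other `ℓ`). -/
def tT (hNS : ∀ q : ℕ, q.Prime → q ∣ N → q ∈ S) (ℓ : ℕ) :
    CuspForm.heckeAlgebra N 2 (↑S : Set ℕ) := by
  classical
  exact if h : ℓ.Prime ∧ ℓ ∉ S then
    CuspForm.heckeAlgebra.T h.1 (not_dvd_of_notMem hNS h.1 h.2) (notMem_coe h.2) else 0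

theorem tT_eq (hNS : ∀ q : ℕ, q.Prime → q ∣ N → q ∈ S) {ℓ : ℕ} (hℓ : ℓ.Prime) (hℓS : ℓ ∉ S) :
    tT hNS ℓ = CuspForm.heckeAlgebra.T hℓ (not_dvd_of_notMem hNS hℓ hℓS) (notMem_coe hℓS) :=
  dif_pos ⟨hℓ, hℓS⟩

/-- `a_ℓ = π(T_ℓ) ∈ T`. -/
def aT (hNS : ∀ q : ℕ, q.Prime → q ∣ N → q ∈ S)
    (H : CuspForm.HeckeGaloisRepDatum N (↑S : Set ℕ) 𝒪 θ T) (ℓ : ℕ) : T := H.π (tT hNS ℓ)

theorem charpoly_aT (hNS : ∀ q : ℕ, q.Prime → q ∣ N → q ∈ S)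
    (H : CuspForm.HeckeGaloisRepDatum N (↑S : Set ℕ) 𝒪 θ T) :
    ∀ ℓ : ℕ, ℓ.Prime → ℓ ∉ S → ∀ A : ValuationSubring Qb, A.LiesOverPrime ℓ →
    ∀ φ : GQ, A.IsFrobeniusAt φ ℓ →
      LinearMap.charpoly (H.ρ.ρ φ) = X ^ 2 - C (aT hNS H ℓ) * X + C ((ℓ : ℕ) : T) := by
  intro ℓ hℓ hℓS A hA φ hφ
  rw [aT, tT_eq hNS hℓ hℓS]
  exact H.charpoly_frob ℓ hℓ _ _ A hA φ hφ

theorem natCast_mem_maximalIdeal_T (hp𝒪 : (p : 𝒪) ∈ IsLocalRing.maximalIdeal 𝒪) :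
    (p : T) ∈ maximalIdeal T := by
  have h1 : (p : T) = algebraMap 𝒪 T (p : 𝒪) := by rw [map_natCast]
  rw [h1]
  exact map_nonunit (algebraMap 𝒪 T) _ hp𝒪

theorem exists_aux_prime (S : Finset ℕ) : ∃ q', q' ∉ S ∧ q'.Prime := by
  obtain ⟨q', h1, h2⟩ := Nat.exists_infinite_primes (S.sup id + 1)
  refine ⟨q', fun h => ?_, h2⟩
  have := Finset.le_sup (f := id) h
  simp only [id] at this
  omega

end

end Fermat.Agent.S33.Soft
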