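import Fermat.Agent.S33.Soft.Core
import Fermat.Agent.S33.Soft.KData
import Fermat.Agent.S33.Soft.KIner
import Fermat.Agent.S33.Soft.KRes

/-!
# S33 / Soft : `Crux + ORD ⟹ S33`   (blueprint #1305, S0-S7; skeleton post #1776)
-/

set_option autoImplicit false

namespace Fermat.Agent.S33

open Fermat.Agent.ES Fermat.Agent.SS

variable {p M : ℕ} [NeZero M] [NeZero p] [NeZero (M * p)] {S : Finset ℕ}
  {𝒪 : Type} [CommRing 𝒪] [IsDomain 𝒪] [IsDiscreteValuationRing 𝒪]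
  [IsAdicComplete (IsLocalRing.maximalIdeal 𝒪) 𝒪]
  {θ : CuspForm.heckeAlgebra (M * p) 2 (↑S : Set ℕ) →+* IsLocalRing.ResidueField 𝒪}
  {T : Type} [CommRing T] [IsLocalRing T] [IsNoetherianRing T]
  [IsAdicComplete (IsLocalRing.maximalIdeal T) T] [Algebra 𝒪 T] [IsLocalHom (algebraMap 𝒪 T)]
  [Module.Finite 𝒪 T] [Module.Free 𝒪 T]

/-- **SOFT.** -/
theorem soft
    (hcrux : ∀ n ℓ : ℕ, ℓ.Prime → ¬ ℓ ∣ (M * p) * p ^ n → Crux (M * p) ℓ (p ^ n))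
    (hp : p.Prime) (hp2 : p ≠ 2) (hpM : ¬ p ∣ M) (hord : Ord M p hp)
    (hp𝒪 : (p : 𝒪) ∈ IsLocalRing.maximalIdeal 𝒪)
    (hNS : ∀ q : ℕ, q.Prime → q ∣ M * p → q ∈ S)
    (H : CuspForm.HeckeGaloisRepDatum (M * p) (↑S : Set ℕ) 𝒪 θ T)
    (hres : (GaloisRepAdic.ofResidualGaloisRep H.ρ.residual).IsOrdinaryAt p) :
    H.ρ.IsOrdinaryAt p := by
  intro P hP
  obtain ⟨σ0, hσ0, hω⟩ := Soft.exists_inertia_omegaNe hp hp2 P hP
  have hpS : p ∈ S := hNS p hp (dvd_mul_left p M)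
  exact Soft.core H.ρ (Ideal.iInf_pow_eq_bot_of_isLocalRing _ Ideal.IsPrime.ne_top')
    H.residual_absIrr hp (Soft.natCast_mem_maximalIdeal_T hp𝒪) P σ0 hσ0
    (Soft.res_trace H.ρ p hres P hP σ0 hσ0)
    (Soft.det_sub_one_notMem hcrux hp hp𝒪 hpS hNS H σ0 hω)
    (fun k => Soft.exists_data hcrux hp hpM hord hp𝒪 hNS H P hP σ0 hσ0 hω k)

end Fermat.Agent.S33
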